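import Mathlib

/-!
# S23, step C2 (pure algebra): the Lagrange–Euler interpolation identity
-/

set_option autoImplicit false
set_option linter.unusedSectionVars false

namespace Fermat.Agent.S23

open Polynomial Finset

variable {K : Type*} [Field K] {ι : Type*} [Fintype ι] [DecidableEq ι]

/-- The polynomial `∏ i, (X - t i)`. -/
noncomputable def rootPoly (t : ι → K) : K[X] := ∏ i, (X - C (t i))

theorem rootPoly_natDegree (t : ι → K) : (rootPoly t).natDegree = Fintype.card ι := by
  unfold rootPoly
  rw [natDegree_finsetProd_X_sub_C_eq_card]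
  simp

theorem rootPoly_eval_root (t : ι → K) (i : ι) : (rootPoly t).eval (t i) = 0 := by
  unfold rootPoly
  rw [eval_prod]
  exact Finset.prod_eq_zero (mem_univ i) (by simp)

theorem rootPoly_derivative_eval (t : ι → K) (i₀ : ι) :
    (rootPoly t).derivative.eval (t i₀) = ∏ i ∈ univ.erase i₀, (t i₀ - t i) := by
  unfold rootPoly
  rw [derivative_prod_finset, eval_finset_sum, Finset.sum_eq_single i₀]
  · simp [eval_prod]
  · intro b _ hb
    rw [eval_mul, eval_prod]
    rw [Finset.prod_eq_zero (i := i₀) (mem_erase.mpr ⟨fun h => hb h.symm, mem_univ _⟩) (by simp)]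
    simp
  · intro h
    exact absurd (mem_univ i₀) h

/-- The divided difference of `rootPoly t`. -/
noncomputable def divDiff (t : ι → K) (x y : K) : K :=
  ∑ i ∈ range (Fintype.card ι + 1), (rootPoly t).coeff i * ∑ m ∈ range i, x ^ m * y ^ (i - 1 - m)

theorem divDiff_mul (t : ι → K) (x y : K) :
    divDiff t x y * (x - y) = (rootPoly t).eval x - (rootPoly t).eval y := by
  unfold divDiff
  rw [Finset.sum_mul, eval_eq_sum_range, eval_eq_sum_range, rootPoly_natDegree,
    ← Finset.sum_sub_distrib]
  refine Finset.sum_congr rfl fun i _ => ?_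
  rw [mul_assoc, geom_sum₂_mul, mul_sub]

theorem divDiff_self (t : ι → K) (x : K) :
    divDiff t x x = (rootPoly t).derivative.eval x := by
  unfold divDiff
  rw [derivative_eval, Polynomial.sum_over_range' _ _ (Fintype.card ι + 1)
    (by rw [rootPoly_natDegree]; exact Nat.lt_succ_self _)]
  · refine Finset.sum_congr rfl fun i _ => ?_
    have : ∑ m ∈ range i, x ^ m * x ^ (i - 1 - m) = (i : K) * x ^ (i - 1) := by
      rw [Finset.sum_congr rfl (g := fun _ => x ^ (i - 1))]
      · simp
      · intro m hm
        rw [← pow_add]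
        congr 1
        have := mem_range.mp hm
        omega
    rw [this, mul_assoc]
  · intro n
    simp

theorem divDiff_eq_zero (t : ι → K) (i₀ q : ι) (hq : q ≠ i₀) :
    divDiff t (t i₀) (t q) = 0 := by
  by_cases h : t q = t i₀
  · rw [h, divDiff_self, rootPoly_derivative_eval]
    exact Finset.prod_eq_zero (i := q) (mem_erase.mpr ⟨hq, mem_univ _⟩) (by simp [h])
  · have := divDiff_mul t (t i₀) (t q)
    rw [rootPoly_eval_root, rootPoly_eval_root, sub_zero] at this
    rcases mul_eq_zero.mp this with h1 | h1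
    · exact h1
    · exact absurd (sub_eq_zero.mp h1).symm h

/-- Reorganisation of the divided difference as a polynomial in `x`. -/
theorem divDiff_eq_sum (t : ι → K) (x y : K) :
    divDiff t x y = ∑ m ∈ range (Fintype.card ι),
      (∑ i ∈ Ioc m (Fintype.card ι), (rootPoly t).coeff i * y ^ (i - 1 - m)) * x ^ m := by
  unfold divDiff
  simp_rw [Finset.mul_sum, Finset.sum_mul]
  rw [Finset.sum_sigma', Finset.sum_sigma']
  refine Finset.sum_bij' (fun a _ => ⟨a.2, a.1⟩) (fun a _ => ⟨a.2, a.1⟩) ?_ ?_ ?_ ?_ ?_
  · rintro ⟨i, m⟩ h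
    simp only [mem_sigma, mem_range, mem_Ioc] at h ⊢
    omega
  · rintro ⟨m, i⟩ h
    simp only [mem_sigma, mem_range, mem_Ioc] at h ⊢
    omega
  · rintro ⟨i, m⟩ _; rfl
  · rintro ⟨m, i⟩ _; rfl
  · rintro ⟨i, m⟩ _
    ring

/-- **Lagrange–Euler identity.** -/
theorem lagrange_euler (t u : ι → K) (i₀ : ι) :
    ∑ m ∈ range (Fintype.card ι),
      (∑ i ∈ Ioc m (Fintype.card ι), (rootPoly t).coeff i * ∑ q, u q * t q ^ (i - 1 - m)) *
        t i₀ ^ m
      = u i₀ * (rootPoly t).derivative.eval (t i₀) := by
  have h1 : ∀ q, u q * divDiff t (t i₀) (t q) = if q = i₀ then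
      u i₀ * (rootPoly t).derivative.eval (t i₀) else 0 := by
    intro q
    split_ifs with h
    · subst h; rw [divDiff_self]
    · rw [divDiff_eq_zero t i₀ q h, mul_zero]
  have h2 : ∑ q, u q * divDiff t (t i₀) (t q) = u i₀ * (rootPoly t).derivative.eval (t i₀) := by
    simp_rw [h1]
    simp
  rw [← h2]
  simp only [divDiff_eq_sum, Finset.mul_sum, Finset.sum_mul]
  rw [Finset.sum_comm (s := (univ : Finset ι))]
  refine Finset.sum_congr rfl fun m _ => ?_
  rw [Finset.sum_comm (s := (univ : Finset ι))]
  refine Finset.sum_congr rfl fun i _ => ?_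
  refine Finset.sum_congr rfl fun q _ => ?_
  ring

/-- The derivative at `x` as a polynomial expression in the coefficients. -/
theorem rootPoly_derivative_eval_eq_sum (t : ι → K) (x : K) [Nonempty ι] :
    (rootPoly t).derivative.eval x =
      ∑ m ∈ range (Fintype.card ι), ((m + 1 : ℕ) : K) * (rootPoly t).coeff (m + 1) * x ^ m := by
  rw [eval_eq_sum_range' (n := Fintype.card ι)]
  · refine Finset.sum_congr rfl fun m _ => ?_
    rw [coeff_derivative]
    push_cast
    ring
  · have h1 := natDegree_derivative_lt (p := rootPoly t)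
      (by rw [rootPoly_natDegree]; exact Fintype.card_ne_zero)
    rwa [rootPoly_natDegree] at h1

/-- Coefficients of `rootPoly` as signed elementary symmetric functions. -/
theorem rootPoly_coeff (t : ι → K) (i : ℕ) (hi : i ≤ Fintype.card ι) :
    (rootPoly t).coeff i = (-1) ^ (Fintype.card ι - i) *
      ∑ s ∈ powersetCard (Fintype.card ι - i) (univ : Finset ι), ∏ q ∈ s, t q := by
  have h := Multiset.prod_X_sub_C_coeff ((univ : Finset ι).val.map t) (k := i)
    (by simpa using hi)
  simp only [Multiset.map_map, Multiset.card_map, Finset.card_val, Finset.card_univ] at h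
  rw [Finset.esymm_map_val] at h
  rw [← h]
  rfl

end Fermat.Agent.S23
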