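import Fermat.Agent.S23.ThetaAux
import Fermat.Prelude.Thm_CongruenceSubgroup_one_mem_strictPeriods_Gamma0
import Fermat.Prelude.Sol.S_ModularFormClass_qCoeff_heckeT

/-!
# S23, step C1: the form `θ(τ) = E₄(N τ)` on `Γ₀(N)`

* `Fermat.Agent.S23.Theta.theta N : ModularForm (G0 N) 4`
* `theta_apply : theta N τ = E₄ (heckeDiagMatrix N • τ)`
* `theta_coe : ⇑(theta N) = ((N:ℂ)^3)⁻¹ • (⇑E₄ ∣[4] heckeDiagMatrix N)`
* `qExpansion_theta_mem_ZSer`, `tendsto_theta`
-/

set_option autoImplicit false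

namespace Fermat.Agent.S23.Theta

open UpperHalfPlane ModularForm MatrixGroups Filter Topology Matrix.SpecialLinearGroup
open ConjAct Pointwise

/-- `Γ₀(N) ⊆ α⁻¹ SL₂(ℤ) α` for `α = diag(N, 1)`. -/
theorem G0_le_conj (N : ℕ) [NeZero N] :
    G0 N ≤ toConjAct (heckeDiagMatrix N)⁻¹ • (𝒮ℒ : Subgroup (GL (Fin 2) ℝ)) := by
  rintro γ ⟨g, hg, rfl⟩
  rw [map_inv, Subgroup.mem_inv_pointwise_smul_iff, toConjAct_smul]
  have hdvd : (N : ℤ) ∣ g 1 0 := by
    rw [SetLike.mem_coe, CongruenceSubgroup.Gamma0_mem] at hg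
    exact (ZMod.intCast_zmod_eq_zero_iff_dvd _ N).mp hg
  obtain ⟨e, he⟩ := hdvd
  obtain ⟨g', hg'⟩ := heckeDiagMatrix_mul_comm (NeZero.ne N) g e he
  rw [hg', mul_inv_cancel_right]
  exact ⟨g', rfl⟩

/-- `E₄ ∣[4] diag(N, 1)` as a modular form on `Γ₀(N)`; its value at `τ` is `N³ E₄(N τ)`. -/
noncomputable def thetaAux (N : ℕ) [NeZero N] : ModularForm (G0 N) 4 where
  toFun := ⇑E₄ ∣[(4 : ℤ)] heckeDiagMatrix N
  slash_action_eq' γ hγ :=
    (ModularForm.translate E₄ (heckeDiagMatrix N)).slash_action_eq' γ (G0_le_conj N hγ)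
  holo' := (ModularForm.translate E₄ (heckeDiagMatrix N)).holo'
  bdd_at_cusps' hc :=
    (ModularForm.translate E₄ (heckeDiagMatrix N)).bdd_at_cusps' (hc.mono (G0_le_conj N))

/-- The modular form `θ(τ) = E₄(N τ)` of weight `4` on `Γ₀(N)`. -/
noncomputable def theta (N : ℕ) [NeZero N] : ModularForm (G0 N) 4 :=
  (((N : ℂ) ^ 3)⁻¹ : ℂ) • thetaAux N

theorem theta_coe (N : ℕ) [NeZero N] :
    ⇑(theta N) = (((N : ℂ) ^ 3)⁻¹ : ℂ) • (⇑E₄ ∣[(4 : ℤ)] heckeDiagMatrix N) := rfl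

theorem theta_apply (N : ℕ) [NeZero N] (τ : ℍ) :
    theta N τ = E₄ (heckeDiagMatrix N • τ) := by
  have hN : (N : ℂ) ≠ 0 := by exact_mod_cast NeZero.ne N
  rw [theta_coe, Pi.smul_apply, slash_heckeDiagMatrix_apply 4 (NeZero.ne N), smul_eq_mul]
  rw [show ((4 : ℤ) - 1) = ((3 : ℕ) : ℤ) by norm_num, zpow_natCast, ← mul_assoc,
    inv_mul_cancel₀ (pow_ne_zero 3 hN), one_mul]


/-- The `q`-expansion coefficients of `E₄` are integers. -/
theorem exists_int_coeff_E4 (n : ℕ) : ∃ z : ℤ, (qExpansion 1 E₄).coeff n = (z : ℂ) := by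
  have hb : bernoulli 4 = -1 / 30 := by
    rw [bernoulli_eq_bernoulli'_of_ne_one (by norm_num), bernoulli'_four]
  have h := EisensteinSeries.E_qExpansion_coeff (k := 4) (by norm_num) ⟨2, rfl⟩ n
  by_cases hn : n = 0
  · exact ⟨1, by rw [h, if_pos hn]; simp⟩
  · refine ⟨240 * (ArithmeticFunction.sigma 3 n : ℤ), ?_⟩
    rw [h, if_neg hn, hb]
    push_cast
    norm_num

theorem hasSum_theta (N : ℕ) [NeZero N] (τ : ℍ) :
    HasSum (fun n : ℕ => (if N ∣ n then (qExpansion 1 E₄).coeff (n / N) else 0) •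
      Function.Periodic.qParam 1 τ ^ n) (theta N τ) := by
  have hper : Function.Periodic (⇑E₄ ∘ ofComplex) 1 :=
    SlashInvariantFormClass.periodic_comp_ofComplex E₄ _root_.one_mem_strictPeriods_SL
  have h := P2MW.S_ModularFormClass_qCoeff_heckeT.M4cP1W2.hasSum_diag (p := N) (NeZero.ne N)
    hper (ModularFormClass.holo E₄) (ModularFormClass.bdd_at_infty E₄) 1 τ
  rw [theta_apply]
  convert h using 1
  · funext n
    split_ifs with hn
    · simp [ModularFormClass.qCoeff]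
    · simp
  · simp

theorem qExpansion_theta_coeff (N : ℕ) [NeZero N] (n : ℕ) :
    (qExpansion 1 (theta N)).coeff n =
      if N ∣ n then (qExpansion 1 E₄).coeff (n / N) else 0 :=
  (ModularFormClass.qExpansion_coeff_unique one_pos
    (CongruenceSubgroup.one_mem_strictPeriods_Gamma0 N) (f := theta N) (hasSum_theta N) n).symm

theorem qExpansion_theta_mem_ZSer (N : ℕ) [NeZero N] : qExpansion 1 (theta N) ∈ ZSer := by
  choose z hz using exists_int_coeff_E4
  refine ⟨PowerSeries.mk fun n => if N ∣ n then z (n / N) else 0, ?_⟩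
  ext n
  rw [PowerSeries.coeff_map, PowerSeries.coeff_mk, qExpansion_theta_coeff]
  split_ifs with hn
  · simp [hz]
  · simp

/-- A modular form with period `1` tends to its constant `q`-coefficient at `i∞`. -/
theorem tendsto_atImInfty_coeff_zero {Γ : Subgroup (GL (Fin 2) ℝ)} {k : ℤ}
    (f : ModularForm Γ k) (hΓ : (1 : ℝ) ∈ Γ.strictPeriods) :
    Tendsto f atImInfty (𝓝 ((qExpansion 1 f).coeff 0)) := by
  have : Fact (IsCusp OnePoint.infty Γ) := ⟨Γ.isCusp_of_mem_strictPeriods one_pos hΓ⟩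
  have hper : Function.Periodic (⇑f ∘ ofComplex) 1 :=
    SlashInvariantFormClass.periodic_comp_ofComplex f hΓ
  have han : AnalyticAt ℂ (cuspFunction 1 f) 0 :=
    analyticAt_cuspFunction_zero one_pos hper (ModularFormClass.holo f)
      (ModularFormClass.bdd_at_infty f)
  have hcomp : (cuspFunction 1 f ∘ fun τ : ℍ => Function.Periodic.qParam 1 τ : ℍ → ℂ) = f := by
    funext τ
    simpa using eq_cuspFunction τ one_ne_zero hper
  have h1 := han.continuousAt.tendsto.comp (qParam_tendsto_atImInfty one_pos)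
  rw [hcomp] at h1
  have h0 : (qExpansion 1 f).coeff 0 = cuspFunction 1 f 0 := by
    simp [qExpansion_coeff]
  rw [h0]
  exact h1

theorem tendsto_E4 : Tendsto E₄ atImInfty (𝓝 1) := by
  have h := tendsto_atImInfty_coeff_zero E₄ _root_.one_mem_strictPeriods_SL
  rwa [EisensteinSeries.E_qExpansion_coeff_zero (by norm_num) ⟨2, rfl⟩] at h

theorem tendsto_theta (N : ℕ) [NeZero N] : Tendsto (theta N) atImInfty (𝓝 1) := by
  have h := tendsto_atImInfty_coeff_zero (theta N)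
    (CongruenceSubgroup.one_mem_strictPeriods_Gamma0 N)
  rw [qExpansion_theta_coeff, if_pos (dvd_zero N), Nat.zero_div,
    EisensteinSeries.E_qExpansion_coeff_zero (by norm_num) ⟨2, rfl⟩] at h
  exact h

end Fermat.Agent.S23.Theta
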