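import Mathlib

/-!
# Ring endomorphisms of `ℂ` move every irrational number (S23, lemma L1)

`Fermat.Agent.S23.FieldAut.exists_ringHom_ne` : for `x : ℂ` not in the range of `ℚ → ℂ`
there is a ring homomorphism `τ : ℂ →+* ℂ` with `τ x ≠ x`.
-/

namespace Fermat.Agent.S23.FieldAut

open Polynomial

/-- Extension lemma: if `ℂ` is algebraic over a domain `A` (via an injective structure map)
and `f : A →+* ℂ` is an injective ring homomorphism, then `f` extends to a ring
homomorphism `ℂ →+* ℂ`. -/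
theorem exists_ringHom_extending {A : Type*} [CommRing A] [IsDomain A] [inst1 : Algebra A ℂ]
    [htf1 : Module.IsTorsionFree A ℂ] [halg : Algebra.IsAlgebraic A ℂ] (f : A →+* ℂ)
    (hf : Function.Injective f) :
    ∃ τ : ℂ →+* ℂ, ∀ a : A, τ (algebraMap A ℂ a) = f a := by
  have htf : @Module.IsTorsionFree A ℂ _ _ f.toAlgebra.toModule := by
    let _ : Algebra A ℂ := f.toAlgebra
    exact Module.isTorsionFree_iff_algebraMap_injective.mpr hf
  let τ := @IsAlgClosed.lift ℂ _ _ A _ _ ℂ _ _ inst1 f.toAlgebra htf1 htf halg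
  refine ⟨@AlgHom.toRingHom A ℂ ℂ _ _ _ inst1 f.toAlgebra τ, fun a => ?_⟩
  exact @AlgHom.commutes A ℂ ℂ _ _ _ inst1 f.toAlgebra τ a

/-- Rescaling the variables of a polynomial ring over a field by nonzero constants is
injective. -/
theorem injective_aeval_scale {ι k : Type*} [Field k] (c : ι → k) (hc : ∀ i, c i ≠ 0) :
    Function.Injective
      (MvPolynomial.aeval (R := k) (fun i => MvPolynomial.C (c i) * MvPolynomial.X i) :
        MvPolynomial ι k →ₐ[k] MvPolynomial ι k) := by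
  have hcomp : (MvPolynomial.aeval (R := k)
        (fun i => MvPolynomial.C (c i)⁻¹ * (MvPolynomial.X i : MvPolynomial ι k))).comp
      (MvPolynomial.aeval (R := k)
        (fun i => MvPolynomial.C (c i) * (MvPolynomial.X i : MvPolynomial ι k))) =
      AlgHom.id k (MvPolynomial ι k) := by
    apply MvPolynomial.algHom_ext
    intro i
    simp only [AlgHom.coe_comp, Function.comp_apply, MvPolynomial.aeval_X, map_mul,
      MvPolynomial.aeval_C, MvPolynomial.algebraMap_eq, AlgHom.coe_id, id_eq]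
    rw [← mul_assoc, ← MvPolynomial.C_mul, mul_inv_cancel₀ (hc i), MvPolynomial.C_1, one_mul]
  intro p q hpq
  have := congrArg (MvPolynomial.aeval (R := k)
        (fun i => MvPolynomial.C (c i)⁻¹ * (MvPolynomial.X i : MvPolynomial ι k))) hpq
  rw [← AlgHom.comp_apply, ← AlgHom.comp_apply, hcomp] at this
  simpa using this

/-- A transcendental complex number is moved by some ring endomorphism of `ℂ`. -/
theorem exists_ringHom_ne_of_transcendental {x : ℂ} (hx : Transcendental ℚ x) :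
    ∃ τ : ℂ →+* ℂ, τ x ≠ x := by
  classical
  have hx0 : x ≠ 0 := by
    rintro rfl
    exact hx (isAlgebraic_zero)
  have hs : AlgebraicIndepOn ℚ (id : ℂ → ℂ) ({x} : Set ℂ) :=
    (algebraicIndependent_singleton_iff (⟨x, rfl⟩ : ({x} : Set ℂ))).mpr hx
  obtain ⟨t, hst, ht⟩ := exists_isTranscendenceBasis_superset hs
  have hxt : x ∈ t := hst rfl
  let x₀ : t := ⟨x, hxt⟩
  let c : t → ℚ := fun i => if i = x₀ then 2 else 1
  have hc : ∀ i, c i ≠ 0 := fun i => by
    simp only [c]; split_ifs <;> norm_num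
  let e := ht.1.aevalEquiv
  have : Algebra.IsAlgebraic (Algebra.adjoin ℚ (Set.range (Subtype.val : t → ℂ))) ℂ :=
    ht.isAlgebraic
  let φ : MvPolynomial t ℚ →ₐ[ℚ] MvPolynomial t ℚ :=
    MvPolynomial.aeval (R := ℚ) (fun i => MvPolynomial.C (c i) * MvPolynomial.X i)
  let f : Algebra.adjoin ℚ (Set.range (Subtype.val : t → ℂ)) →+* ℂ :=
    ((MvPolynomial.aeval (R := ℚ) (Subtype.val : t → ℂ)).comp φ).toRingHom.comp
      e.symm.toRingEquiv.toRingHom
  have hf : Function.Injective f := by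
    have h1 : Function.Injective (MvPolynomial.aeval (R := ℚ) (Subtype.val : t → ℂ)) := ht.1
    have h2 : Function.Injective φ := injective_aeval_scale c hc
    have h3 : Function.Injective e.symm := e.symm.injective
    exact (h1.comp h2).comp h3
  obtain ⟨τ, hτ⟩ := exists_ringHom_extending f hf
  refine ⟨τ, ?_⟩
  have hxA : x ∈ Algebra.adjoin ℚ (Set.range (Subtype.val : t → ℂ)) :=
    Algebra.subset_adjoin ⟨x₀, rfl⟩
  have hex : e (MvPolynomial.X x₀) = ⟨x, hxA⟩ := by
    apply Subtype.ext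
    rw [AlgebraicIndependent.aevalEquiv_apply_coe, MvPolynomial.aeval_X]
  have hsymm : e.symm ⟨x, hxA⟩ = MvPolynomial.X x₀ := by
    rw [← hex, AlgEquiv.symm_apply_apply]
  have hfx : f ⟨x, hxA⟩ = 2 * x := by
    show (MvPolynomial.aeval (R := ℚ) (Subtype.val : t → ℂ)) (φ (e.symm ⟨x, hxA⟩)) = 2 * x
    rw [hsymm]
    simp only [φ, MvPolynomial.aeval_X, map_mul, MvPolynomial.aeval_C, c, if_true]
    simp [x₀]
  have := hτ ⟨x, hxA⟩
  rw [hfx] at this
  have hx' : τ x = 2 * x := this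
  rw [hx']
  intro h
  apply hx0
  linear_combination h

/-- An algebraic irrational complex number is moved by some ring endomorphism of `ℂ`. -/
theorem exists_ringHom_ne_of_isAlgebraic {x : ℂ} (hx : IsAlgebraic ℚ x)
    (hxQ : x ∉ (algebraMap ℚ ℂ).range) :
    ∃ τ : ℂ →+* ℂ, τ x ≠ x := by
  classical
  let k : IntermediateField ℚ ℂ := algebraicClosure ℚ ℂ
  have hcl : IsAlgClosure ℚ k := algebraicClosure.isAlgClosure (F := ℚ) (E := ℂ)
  have hac : IsAlgClosed k := hcl.isAlgClosed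
  have hnorm : Normal ℚ k := IsAlgClosure.normal ℚ k
  have hxk : x ∈ k := mem_algebraicClosure_iff.mpr hx
  let x₀ : k := ⟨x, hxk⟩
  have hx₀alg : IsAlgebraic ℚ x₀ := Algebra.IsAlgebraic.isAlgebraic x₀
  have hx₀Q : x₀ ∉ (algebraMap ℚ k).range := by
    rintro ⟨q, hq⟩
    exact hxQ ⟨q, by rw [← show ((x₀ : k) : ℂ) = x from rfl, ← hq]; rfl⟩
  -- the minimal polynomial has at least two roots in `k`
  have hirr : Irreducible (minpoly ℚ x₀) := minpoly.irreducible hx₀alg.isIntegral
  have hsep : (minpoly ℚ x₀).Separable := hirr.separable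
  have hsplit : ((minpoly ℚ x₀).map (algebraMap ℚ k)).Splits := IsAlgClosed.splits _
  have hcard := Polynomial.card_rootSet_eq_natDegree (K := k) hsep hsplit
  have hdeg : 2 ≤ (minpoly ℚ x₀).natDegree := by
    have h1 : (minpoly ℚ x₀).natDegree ≠ 1 := fun h => hx₀Q (minpoly.natDegree_eq_one_iff.mp h)
    have h0 : 0 < (minpoly ℚ x₀).natDegree := minpoly.natDegree_pos hx₀alg.isIntegral
    omega
  have hex : ∃ y : k, y ∈ (minpoly ℚ x₀).rootSet k ∧ y ≠ x₀ := by
    by_contra hcon
    push Not at hcon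
    have hsub : Subsingleton ((minpoly ℚ x₀).rootSet k) :=
      ⟨fun a b => Subtype.ext ((hcon a a.2).trans (hcon b b.2).symm)⟩
    have : Fintype.card ((minpoly ℚ x₀).rootSet k) ≤ 1 := Fintype.card_le_one_iff_subsingleton.mpr hsub
    omega
  obtain ⟨y, hy, hyx⟩ := hex
  have hyroot : Polynomial.aeval y (minpoly ℚ x₀) = 0 := (Polynomial.mem_rootSet.mp hy).2
  obtain ⟨σ, hσ⟩ := minpoly.exists_algEquiv_of_root (K := ℚ) (L := k) hx₀alg hyroot
  have hσx : σ x₀ ≠ x₀ := by
    intro h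
    apply hyx
    apply σ.injective
    rw [hσ, h]
  -- extend `σ` to `ℂ`
  obtain ⟨s, hs⟩ := exists_isTranscendenceBasis k ℂ
  let e := hs.1.aevalEquiv
  have : Algebra.IsAlgebraic (Algebra.adjoin k (Set.range (Subtype.val : s → ℂ))) ℂ :=
    hs.isAlgebraic
  let f : Algebra.adjoin k (Set.range (Subtype.val : s → ℂ)) →+* ℂ :=
    ((MvPolynomial.aeval (R := k) (Subtype.val : s → ℂ)).toRingHom.comp
      (MvPolynomial.map (σ : k →+* k))).comp e.symm.toRingEquiv.toRingHom
  have hf : Function.Injective f := by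
    have h1 : Function.Injective (MvPolynomial.aeval (R := k) (Subtype.val : s → ℂ)) := hs.1
    have h2 : Function.Injective (MvPolynomial.map (σ := s) (σ : k →+* k)) :=
      MvPolynomial.map_injective _ σ.injective
    have h3 : Function.Injective e.symm := e.symm.injective
    exact (h1.comp h2).comp h3
  obtain ⟨τ, hτ⟩ := exists_ringHom_extending f hf
  refine ⟨τ, ?_⟩
  have hsymm : e.symm (algebraMap k _ x₀) = MvPolynomial.C x₀ := by
    rw [AlgEquiv.commutes]; rfl
  have hfx : f (algebraMap k _ x₀) = ((σ x₀ : k) : ℂ) := by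
    show (MvPolynomial.aeval (R := k) (Subtype.val : s → ℂ))
      (MvPolynomial.map (σ : k →+* k) (e.symm (algebraMap k _ x₀))) = _
    rw [hsymm, MvPolynomial.map_C, MvPolynomial.aeval_C]
    rfl
  have h := hτ (algebraMap k _ x₀)
  rw [hfx] at h
  have hx' : τ x = ((σ x₀ : k) : ℂ) := h
  rw [hx']
  intro hcon
  exact hσx (Subtype.ext hcon)

/-- **L1.** Every complex number outside `ℚ` is moved by some ring endomorphism of `ℂ`. -/
theorem exists_ringHom_ne {x : ℂ} (hx : x ∉ Set.range ((↑) : ℚ → ℂ)) :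
    ∃ τ : ℂ →+* ℂ, τ x ≠ x := by
  by_cases halg : IsAlgebraic ℚ x
  · refine exists_ringHom_ne_of_isAlgebraic halg ?_
    rintro ⟨q, hq⟩
    exact hx ⟨q, by rw [← hq]; simp⟩
  · exact exists_ringHom_ne_of_transcendental halg

/-- Reformulation of **L1**: a complex number fixed by all ring endomorphisms of `ℂ` is
rational. -/
theorem exists_rat_of_forall_ringHom_fixed {x : ℂ} (hx : ∀ τ : ℂ →+* ℂ, τ x = x) :
    ∃ q : ℚ, (q : ℂ) = x := by
  by_contra h
  obtain ⟨τ, hτ⟩ := exists_ringHom_ne (x := x) (fun ⟨q, hq⟩ => h ⟨q, hq⟩)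
  exact hτ (hx τ)

/-- **L1** in the exact shape of the stub `Fermat.Agent.S23.exists_ringHom_apply_ne`. -/
theorem exists_ringHom_apply_ne_algebraMap (x : ℂ) (hx : x ∉ Set.range (algebraMap ℚ ℂ)) :
    ∃ τ : ℂ →+* ℂ, τ x ≠ x :=
  exists_ringHom_ne_of_or x hx
where
  exists_ringHom_ne_of_or (x : ℂ) (hx : x ∉ Set.range (algebraMap ℚ ℂ)) :
      ∃ τ : ℂ →+* ℂ, τ x ≠ x := by
    by_cases halg : IsAlgebraic ℚ x
    · exact exists_ringHom_ne_of_isAlgebraic halg (fun ⟨q, hq⟩ => hx ⟨q, hq⟩)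
    · exact exists_ringHom_ne_of_transcendental halg

end Fermat.Agent.S23.FieldAut
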