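import Fermat.Agent.S23.Defs

/-!
# S23, steps L1 and L3 (pure algebra): Galois descent for finite-dimensional spaces of power series
Owner: helper92.
-/

set_option autoImplicit false

namespace Fermat.Agent.S23

open MvPolynomial in
/-- General transport: a ring automorphism of the polynomial ring on a transcendence basis
extends to a ring automorphism of `ℂ`. -/
theorem exists_ringEquiv_of_mvPolynomial_equiv {R : Type*} [Field R] [Algebra R ℂ]
    {ι : Type*} (v : ι → ℂ) (hv : IsTranscendenceBasis R v)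
    (e : MvPolynomial ι R ≃+* MvPolynomial ι R) :
    ∃ τ : ℂ ≃+* ℂ, ∀ P : MvPolynomial ι R, τ (aeval v P) = aeval v (e P) := by
  have := IsAlgClosed.isAlgClosure_of_transcendence_basis v hv
  let A := Algebra.adjoin R (Set.range v)
  let a : MvPolynomial ι R ≃ₐ[R] A := hv.1.aevalEquiv
  let e' : A ≃+* A := a.symm.toRingEquiv.trans (e.trans a.toRingEquiv)
  refine ⟨IsAlgClosure.equivOfEquiv ℂ ℂ e', fun P => ?_⟩
  have h1 : (aeval v P : ℂ) = algebraMap A ℂ (a P) := by
    simp [a]
    rfl
  have h2 : (aeval v (e P) : ℂ) = algebraMap A ℂ (a (e P)) := by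
    simp [a]
    rfl
  rw [h1, h2, IsAlgClosure.equivOfEquiv_algebraMap]
  congr 1
  simp [e']

open MvPolynomial in
/-- The automorphism `X i₀ ↦ X i₀ + 1` of a polynomial ring. -/
noncomputable def shiftEquiv (R : Type*) [CommRing R] {ι : Type*} [DecidableEq ι] (i₀ : ι) :
    MvPolynomial ι R ≃ₐ[R] MvPolynomial ι R :=
  AlgEquiv.ofAlgHom
    (aeval fun i => if i = i₀ then X i + 1 else X i)
    (aeval fun i => if i = i₀ then X i - 1 else X i)
    (by
      ext i
      by_cases h : i = i₀ <;> simp [h])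
    (by
      ext i
      by_cases h : i = i₀ <;> simp [h])

theorem exists_ringEquiv_apply_ne_of_transcendental (x : ℂ) (hx : Transcendental ℚ x) :
    ∃ τ : ℂ ≃+* ℂ, τ x ≠ x := by
  classical
  have h1 : AlgebraicIndepOn ℚ id ({x} : Set ℂ) :=
    (algebraicIndependent_singleton_iff (⟨x, rfl⟩ : ({x} : Set ℂ))).mpr (by simpa using hx)
  obtain ⟨t, hxt, ht⟩ := exists_isTranscendenceBasis_superset h1
  have hxt' : x ∈ t := hxt (Set.mem_singleton x)
  obtain ⟨τ, hτ⟩ := exists_ringEquiv_of_mvPolynomial_equiv (R := ℚ) (Subtype.val : t → ℂ) ht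
    (shiftEquiv ℚ (⟨x, hxt'⟩ : t)).toRingEquiv
  refine ⟨τ, ?_⟩
  have := hτ (MvPolynomial.X ⟨x, hxt'⟩)
  simp [shiftEquiv] at this
  rw [this]
  simp

open Polynomial in
theorem exists_ringEquiv_apply_ne_of_isAlgebraic (x : ℂ) (hx : IsAlgebraic ℚ x)
    (hxQ : x ∉ Set.range (algebraMap ℚ ℂ)) :
    ∃ τ : ℂ ≃+* ℂ, τ x ≠ x := by
  classical
  have hxF : x ∈ algebraicClosure ℚ ℂ := by
    rw [mem_algebraicClosure_iff]; exact hx
  have : IsAlgClosure ℚ (algebraicClosure ℚ ℂ) := algebraicClosure.isAlgClosure ℚ ℂ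
  have : IsAlgClosed (algebraicClosure ℚ ℂ) := IsAlgClosure.isAlgClosed ℚ
  have : Normal ℚ (algebraicClosure ℚ ℂ) := IsAlgClosure.normal ℚ _
  let x' : algebraicClosure ℚ ℂ := ⟨x, hxF⟩
  have hx'bot : x' ∉ (⊥ : Subalgebra ℚ (algebraicClosure ℚ ℂ)) := by
    rintro ⟨r, hr⟩
    apply hxQ
    refine ⟨r, ?_⟩
    have := congrArg (algebraMap (algebraicClosure ℚ ℂ) ℂ) hr
    simpa [x'] using this
  have hsepx : IsSeparable ℚ x' := Algebra.IsSeparable.isSeparable ℚ x'
  obtain ⟨y, hne, hconj⟩ := (notMem_iff_exists_ne_and_isConjRoot hsepx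
    (IsAlgClosed.splits _)).mp hx'bot
  obtain ⟨σ, hσ⟩ := hconj.exists_algEquiv
  obtain ⟨ι, v, hv⟩ := exists_isTranscendenceBasis' (algebraicClosure ℚ ℂ) ℂ
  obtain ⟨τ, hτ⟩ := exists_ringEquiv_of_mvPolynomial_equiv (R := algebraicClosure ℚ ℂ) v hv
    (MvPolynomial.mapEquiv ι σ.symm.toRingEquiv)
  refine ⟨τ, ?_⟩
  have h1 := hτ (MvPolynomial.C x')
  simp only [MvPolynomial.mapEquiv_apply, MvPolynomial.map_C, MvPolynomial.aeval_C] at h1
  have h2 : (σ.symm x' : algebraicClosure ℚ ℂ) = y := by
    rw [← hσ]; simp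
  intro hcon
  apply hne
  apply Subtype.ext
  have h3 : τ x = ((σ.symm x' : algebraicClosure ℚ ℂ) : ℂ) := h1
  rw [hcon, h2] at h3
  exact h3

/-- L1 (automorphism version): every irrational complex number is moved by some ring
automorphism of `ℂ`. -/
theorem exists_ringEquiv_apply_ne (x : ℂ) (hx : x ∉ Set.range (algebraMap ℚ ℂ)) :
    ∃ τ : ℂ ≃+* ℂ, τ x ≠ x := by
  by_cases h : IsAlgebraic ℚ x
  · exact exists_ringEquiv_apply_ne_of_isAlgebraic x h hx
  · exact exists_ringEquiv_apply_ne_of_transcendental x h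

/-- L1: every irrational complex number is moved by some ring endomorphism of `ℂ`. -/
theorem exists_ringHom_apply_ne (x : ℂ) (hx : x ∉ Set.range (algebraMap ℚ ℂ)) :
    ∃ τ : ℂ →+* ℂ, τ x ≠ x := by
  obtain ⟨τ, hτ⟩ := exists_ringEquiv_apply_ne x hx
  exact ⟨τ.toRingHom, hτ⟩

open Module in
/-- Linear algebra: in a finite-dimensional space `V`, a family of functionals with trivial common
kernel contains a basis of the dual, and there is a basis of `V` dual to it. -/
theorem exists_dual_pair {K : Type*} [Field K] {V : Type*} [AddCommGroup V] [Module K V]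
    [FiniteDimensional K V] {κ : Type*} (φ : κ → Dual K V)
    (hφ : ∀ v : V, (∀ n, φ n v = 0) → v = 0) :
    ∃ (ι : Type) (_ : Fintype ι) (_ : DecidableEq ι) (n : ι → κ) (c : Basis ι K V),
      (∀ i j, φ (n i) (c j) = if i = j then 1 else 0) ∧
      (∀ v : V, (∀ i, φ (n i) v = 0) → v = 0) := by
  classical
  have hspan : ⊤ ≤ Submodule.span K (Set.range φ) := by
    rw [top_le_iff, ← Subspace.dualCoannihilator_dualAnnihilator_eq
      (W := Submodule.span K (Set.range φ))]
    have : (Submodule.span K (Set.range φ)).dualCoannihilator = ⊥ := by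
      rw [eq_bot_iff]
      intro v hv
      rw [Submodule.mem_dualCoannihilator] at hv
      rw [Submodule.mem_bot]
      exact hφ v fun n => hv _ (Submodule.subset_span ⟨n, rfl⟩)
    rw [this]
    exact Submodule.dualAnnihilator_bot
  let b := Basis.ofSpan hspan
  have hb : ∀ i, ∃ n, φ n = b i := fun i => Basis.ofSpan_subset hspan ⟨i, rfl⟩
  choose n hn using hb
  have : Finite ((linearIndepOn_empty K id).extend (Set.empty_subset (Set.range φ))) :=
    Module.Finite.finite_basis b
  let ι₀ := ((linearIndepOn_empty K id).extend (Set.empty_subset (Set.range φ)))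
  let _ : Fintype ι₀ := Fintype.ofFinite _
  let e : ι₀ ≃ Fin (Fintype.card ι₀) := Fintype.equivFin ι₀
  let b' : Basis (Fin (Fintype.card ι₀)) K (Dual K V) := b.reindex e
  let c : Basis (Fin (Fintype.card ι₀)) K V := b'.dualBasis.map (evalEquiv K V).symm
  refine ⟨Fin (Fintype.card ι₀), inferInstance, inferInstance, fun i => n (e.symm i), c, ?_, ?_⟩
  · intro i j
    have h1 : φ (n (e.symm i)) = b' i := by
      rw [hn]; simp [b']
    rw [h1]
    simp only [c, Basis.map_apply]
    rw [apply_evalEquiv_symm_apply, Basis.dualBasis_apply_self]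
  · intro v hv
    rw [← forall_dual_apply_eq_zero_iff K v]
    intro ψ
    have : ψ ∈ Submodule.span K (Set.range b') := by
      rw [b'.span_eq]; trivial
    induction this using Submodule.span_induction with
    | mem x hx =>
      obtain ⟨i, rfl⟩ := hx
      have h1 : φ (n (e.symm i)) = b' i := by
        rw [hn]; simp [b']
      rw [← h1]; exact hv i
    | zero => simp
    | add x y _ _ hx hy => simp [hx, hy]
    | smul a x _ hx => simp [hx]

/-- L3 (automorphism version): a finite-dimensional space of complex power series which is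
stable under applying any ring automorphism of `ℂ` to the coefficients is spanned by its elements
with rational coefficients. -/
theorem le_span_inter_QSer_of_map_ringEquiv_mem (V : Submodule ℂ (PowerSeries ℂ))
    [FiniteDimensional ℂ V]
    (hV : ∀ (τ : ℂ ≃+* ℂ), ∀ v ∈ V, PowerSeries.map (τ : ℂ →+* ℂ) v ∈ V) :
    V ≤ Submodule.span ℂ ((V : Set (PowerSeries ℂ)) ∩ QSer) := by
  classical
  obtain ⟨ι, _, _, n, c, hc1, hc2⟩ := exists_dual_pair (K := ℂ) (V := V)
    (fun m : ℕ => (PowerSeries.coeff m : PowerSeries ℂ →ₗ[ℂ] ℂ).comp V.subtype)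
    (by
      intro v hv
      apply Subtype.ext
      ext m
      simpa using hv m)
  simp only [LinearMap.coe_comp, Function.comp_apply, Submodule.subtype_apply] at hc1 hc2
  -- every basis vector has rational coefficients
  have hcQ : ∀ j, ((c j : V) : PowerSeries ℂ) ∈ QSer := by
    intro j
    have key : ∀ m, PowerSeries.coeff m ((c j : V) : PowerSeries ℂ) ∈
        Set.range (algebraMap ℚ ℂ) := by
      intro m
      by_contra hm
      obtain ⟨τ, hτ⟩ := exists_ringEquiv_apply_ne _ hm
      apply hτ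
      let w : V := ⟨PowerSeries.map (τ : ℂ →+* ℂ) (c j), hV τ _ (c j).2⟩
      have hw : w - c j = 0 := by
        apply hc2
        intro i
        simp only [w, Submodule.coe_sub, map_sub, PowerSeries.coeff_map, hc1]
        split_ifs <;> simp
      have hw' : w = c j := sub_eq_zero.mp hw
      have := congrArg (fun u : V => PowerSeries.coeff m (u : PowerSeries ℂ)) hw'
      simpa [w] using this
    choose r hr using key
    refine ⟨PowerSeries.mk r, ?_⟩
    ext m
    simp [hr]
  intro v hv
  have hv' : (⟨v, hv⟩ : V) = ∑ j, c.repr ⟨v, hv⟩ j • c j := (c.sum_repr ⟨v, hv⟩).symm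
  have hv'' : v = ∑ j, c.repr ⟨v, hv⟩ j • ((c j : V) : PowerSeries ℂ) := by
    have h0 : ((⟨v, hv⟩ : V) : PowerSeries ℂ) =
        ((∑ j, c.repr ⟨v, hv⟩ j • c j : V) : PowerSeries ℂ) := congrArg Subtype.val hv'
    rw [Submodule.coe_sum] at h0
    simpa using h0
  rw [hv'']
  refine Submodule.sum_mem _ fun j _ => Submodule.smul_mem _ _ (Submodule.subset_span ⟨(c j).2, hcQ j⟩)

/-- L3: a finite-dimensional space of complex power series which is stable under applying any ring
endomorphism of `ℂ` to the coefficients is spanned by its elements with rational coefficients. -/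
theorem le_span_inter_QSer_of_map_mem (V : Submodule ℂ (PowerSeries ℂ)) [FiniteDimensional ℂ V]
    (hV : ∀ (τ : ℂ →+* ℂ), ∀ v ∈ V, PowerSeries.map τ v ∈ V) :
    V ≤ Submodule.span ℂ ((V : Set (PowerSeries ℂ)) ∩ QSer) :=
  le_span_inter_QSer_of_map_ringEquiv_mem V fun τ v hv => hV (τ : ℂ →+* ℂ) v hv

end Fermat.Agent.S23
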