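import Fermat.Agent.S23.Stability
import Fermat.Agent.S23.Descent
import Fermat.Agent.S23.FiniteDim

/-!
# S23: final assembly (general weight)
Owner: helper33.

Proof sketch.  `V := LinearMap.range (qExpLin N k)` is finite-dimensional and stable under
`PowerSeries.map τ` (`exists_cuspForm_qExpansion_map`), so by `le_span_inter_QSer_of_map_mem`
`V ≤ span ℂ (V ∩ QSer)`.  If `v = qExpLin g ∈ QSer`, then by `exists_nat_smul_qExpansion_mem_ZSer`
`M • g` has integral q-expansion for some `M > 0`, i.e. `M • g ∈ CuspForm.intLattice N k`, so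
`g = M⁻¹ • (M • g) ∈ span ℂ (intLattice)`.  Hence `V ≤ map (qExpLin) (span ℂ intLattice)` and by
injectivity of `qExpLin` every `f` lies in `span ℂ intLattice`.
-/

set_option autoImplicit false

namespace Fermat.Agent.S23

open UpperHalfPlane ModularForm MatrixGroups

/-- A cusp form whose q-expansion is integral lies in the integral lattice. -/
theorem mem_intLattice_of_qExpansion_mem_ZSer (N : ℕ) (k : ℤ) (g : CuspForm (G0 N) k)
    (hg : qExpansion 1 g ∈ ZSer) :
    g ∈ (CuspForm.intLattice N k : Submodule ℤ (CuspForm (CongruenceSubgroup.Gamma0 N) k)) := by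
  refine Submodule.subset_span ?_
  intro n
  obtain ⟨P, hP⟩ := hg
  refine ⟨PowerSeries.coeff n P, ?_⟩
  change (qExpansion 1 g).coeff n = _
  rw [← hP, PowerSeries.coeff_map]
  rfl

/-- **Integral structure** on `S_k(Γ₀(N))`, any weight. -/
theorem hasIntegralStructure (N : ℕ) [NeZero N] (k : ℤ) : CuspForm.HasIntegralStructure N k := by
  unfold CuspForm.HasIntegralStructure
  rw [eq_top_iff]
  intro f _
  have hV : ∀ τ : ℂ →+* ℂ, ∀ v ∈ LinearMap.range (qExpLin N k),
      PowerSeries.map τ v ∈ LinearMap.range (qExpLin N k) := by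
    rintro τ _ ⟨g, rfl⟩
    obtain ⟨g', hg'⟩ := exists_cuspForm_qExpansion_map N k τ g
    exact ⟨g', hg'⟩
  have h1 := le_span_inter_QSer_of_map_mem (LinearMap.range (qExpLin N k)) hV
  have h2 : Submodule.span ℂ (((LinearMap.range (qExpLin N k) :
        Submodule ℂ (PowerSeries ℂ)) : Set (PowerSeries ℂ)) ∩ QSer) ≤
      Submodule.map (qExpLin N k) (Submodule.span ℂ
        ((CuspForm.intLattice N k : Submodule ℤ (CuspForm (CongruenceSubgroup.Gamma0 N) k)) :
          Set (CuspForm (G0 N) k))) := by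
    rw [Submodule.span_le]
    rintro _ ⟨⟨g, rfl⟩, hq⟩
    obtain ⟨M, hM, hMZ⟩ := exists_nat_smul_qExpansion_mem_ZSer N k g hq
    refine ⟨g, ?_, rfl⟩
    have hMg : (M : ℂ) • g ∈
        (CuspForm.intLattice N k : Submodule ℤ (CuspForm (CongruenceSubgroup.Gamma0 N) k)) := by
      refine mem_intLattice_of_qExpansion_mem_ZSer N k _ ?_
      have : qExpansion 1 (((M : ℂ) • g : CuspForm (G0 N) k) : ℍ → ℂ) =
          (M : ℂ) • qExpansion 1 g := (qExpLin N k).map_smul (M : ℂ) g
      rw [this]
      exact hMZ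
    have hM0 : (M : ℂ) ≠ 0 := by exact_mod_cast hM.ne'
    have hg : g = (M : ℂ)⁻¹ • ((M : ℂ) • g) := by
      rw [smul_smul, inv_mul_cancel₀ hM0, one_smul]
    rw [hg]
    exact Submodule.smul_mem _ _ (Submodule.subset_span hMg)
  obtain ⟨f', hf', hff'⟩ := h2 (h1 ⟨f, rfl⟩)
  have := qExpLin_injective N k hff'
  rw [← this]
  exact hf'

end Fermat.Agent.S23
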