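import Fermat.Agent.S23.Defs

set_option autoImplicit false

/-!
# Bounded denominators (S23, lemmas L2 and L4). Owner: helper86.

L2: if `F ∈ ℚ⟦X⟧` and `C ∈ ℤ⟦X⟧ \ {0}` satisfy `C * F ^ n ∈ ℤ⟦X⟧` for all `n`, then `F ∈ ℤ⟦X⟧`.
L4: a rational series that is a quotient of series in the `ℂ`-span of integral series and a root of
a monic polynomial with coefficients in that span has bounded denominators.
-/

namespace Fermat.Agent.S23

open PowerSeries

section Order

variable {R : Type*} [CommRing R]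

/-- Lowest coefficient of a product of two power series vanishing below `a` and `b`. -/
theorem coeff_mul_of_vanish_below {A B : PowerSeries R} {a b : ℕ}
    (hA : ∀ i < a, coeff i A = 0) (hB : ∀ i < b, coeff i B = 0) :
    (∀ i < a + b, coeff i (A * B) = 0) ∧ coeff (a + b) (A * B) = coeff a A * coeff b B := by
  constructor
  · intro i hi
    rw [coeff_mul]
    refine Finset.sum_eq_zero fun x hx => ?_
    have hx' : x.1 + x.2 = i := Finset.HasAntidiagonal.mem_antidiagonal.mp hx
    by_cases h1 : x.1 < a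
    · rw [hA _ h1, zero_mul]
    · have h2 : x.2 < b := by omega
      rw [hB _ h2, mul_zero]
  · rw [coeff_mul]
    rw [Finset.sum_eq_single (a, b)]
    · intro x hx hne
      have hx' : x.1 + x.2 = a + b := Finset.HasAntidiagonal.mem_antidiagonal.mp hx
      by_cases h1 : x.1 < a
      · rw [hA _ h1, zero_mul]
      · by_cases h2 : x.2 < b
        · rw [hB _ h2, mul_zero]
        · exfalso
          apply hne
          have : x.1 = a := by omega
          have : x.2 = b := by omega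
          exact Prod.ext ‹x.1 = a› ‹x.2 = b›
    · intro h
      exact absurd (Finset.HasAntidiagonal.mem_antidiagonal.mpr (show (a, b).1 + (a, b).2 = a + b from rfl)) h

/-- Lowest coefficient of a power of a power series vanishing below `b`. -/
theorem coeff_pow_of_vanish_below {B : PowerSeries R} {b : ℕ}
    (hB : ∀ i < b, coeff i B = 0) (n : ℕ) :
    (∀ i < n * b, coeff i (B ^ n) = 0) ∧ coeff (n * b) (B ^ n) = (coeff b B) ^ n := by
  induction n with
  | zero =>
    refine ⟨fun i hi => ?_, ?_⟩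
    · omega
    · simp
  | succ n ih =>
    have h := coeff_mul_of_vanish_below ih.1 hB
    have e : (n + 1) * b = n * b + b := by ring
    rw [pow_succ, e]
    refine ⟨h.1, ?_⟩
    rw [h.2, ih.2, pow_succ]

end Order

/-- Arithmetic core: a nonzero integer `c` with `c * h ^ n ∈ ℤ` for all `n` forces `h ∈ ℤ`. -/
theorem rat_isInt_of_mul_pow_isInt (c : ℤ) (hc : c ≠ 0) (h : ℚ)
    (H : ∀ n : ℕ, ∃ m : ℤ, (c : ℚ) * h ^ n = m) : ∃ m : ℤ, h = m := by
  by_contra hne
  have hden : h.den ≠ 1 := by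
    intro h1
    exact hne ⟨h.num, by
      conv_lhs => rw [← Rat.num_div_den h]
      rw [h1]; simp⟩
  have hden2 : 2 ≤ h.den := by
    have := h.den_pos
    omega
  -- `h.den ^ n ∣ c` for every `n`
  have hdvd : ∀ n : ℕ, ((h.den : ℤ) ^ n) ∣ c := by
    intro n
    obtain ⟨m, hm⟩ := H n
    have hd0 : (h.den : ℚ) ≠ 0 := by exact_mod_cast h.den_pos.ne'
    have e1 : (c : ℚ) * (h.num : ℚ) ^ n = m * (h.den : ℚ) ^ n := by
      have : h = (h.num : ℚ) / (h.den : ℚ) := (Rat.num_div_den h).symm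
      rw [this, div_pow] at hm
      field_simp at hm
      linarith
    have e2 : c * h.num ^ n = m * (h.den : ℤ) ^ n := by exact_mod_cast e1
    have hcop : IsCoprime ((h.den : ℤ) ^ n) (h.num ^ n) := by
      apply IsCoprime.pow
      rw [Int.isCoprime_iff_gcd_eq_one]
      have := h.reduced
      rw [Nat.Coprime] at this
      rw [Int.gcd_comm]
      simpa [Int.gcd, Int.natAbs_natCast] using this
    have h3 : ((h.den : ℤ) ^ n) ∣ c * h.num ^ n := ⟨m, by rw [e2]; ring⟩
    exact hcop.dvd_of_dvd_mul_right h3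
  -- contradiction for `n = |c|`
  have hle := Int.le_of_dvd (by positivity : (0 : ℤ) < |c|)
    ((dvd_abs _ _).mpr (hdvd c.natAbs))
  have h4 : (2 : ℤ) ^ c.natAbs ≤ (h.den : ℤ) ^ c.natAbs := by
    apply pow_le_pow_left₀ (by norm_num)
    exact_mod_cast hden2
  have h5 : (c.natAbs : ℤ) < (2 : ℤ) ^ c.natAbs := by
    exact_mod_cast Nat.lt_two_pow_self
  have h6 : |c| = (c.natAbs : ℤ) := (Int.natCast_natAbs c).symm
  omega

/-- The subring of `ℚ⟦X⟧` of power series with integer coefficients. -/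
noncomputable def intSeries : Subring (PowerSeries ℚ) := (PowerSeries.map (Int.castRingHom ℚ)).range

theorem mem_intSeries_iff (F : PowerSeries ℚ) :
    F ∈ intSeries ↔ ∀ n : ℕ, ∃ m : ℤ, coeff n F = m := by
  constructor
  · rintro ⟨G, rfl⟩ n
    exact ⟨coeff n G, by simp⟩
  · intro h
    choose g hg using h
    refine ⟨PowerSeries.mk g, ?_⟩
    ext n
    simp [hg n]

/-- **Bounded denominators (L2).** If `C ∈ ℤ⟦X⟧` is nonzero and `C * F ^ n` has integer
coefficients for every `n`, then `F` has integer coefficients. -/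
theorem mem_ringHomRange_of_bounded_powers (F : PowerSeries ℚ) (C : PowerSeries ℤ) (hC : C ≠ 0)
    (h : ∀ n : ℕ, C.map (Int.castRingHom ℚ) * F ^ n ∈
      (PowerSeries.map (Int.castRingHom ℚ)).range) :
    F ∈ (PowerSeries.map (Int.castRingHom ℚ)).range := by
  change F ∈ intSeries
  have h' : ∀ n : ℕ, C.map (Int.castRingHom ℚ) * F ^ n ∈ intSeries := h
  by_contra hF
  rw [mem_intSeries_iff] at hF
  push Not at hF
  classical
  -- least non-integral coefficient of `F`
  let i₀ := Nat.find hF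
  have hi₀ : ∀ m : ℤ, coeff i₀ F ≠ m := Nat.find_spec hF
  have hlt : ∀ i < i₀, ∃ m : ℤ, coeff i F = m := fun i hi => by
    have := Nat.find_min hF hi
    push Not at this
    exact this
  -- the integral head of `F`
  let G' : PowerSeries ℚ := PowerSeries.mk fun i => if i < i₀ then coeff i F else 0
  have hG' : G' ∈ intSeries := by
    rw [mem_intSeries_iff]
    intro n
    by_cases hn : n < i₀
    · obtain ⟨m, hm⟩ := hlt n hn
      exact ⟨m, by simp [G', hn, hm]⟩
    · exact ⟨0, by simp [G', hn]⟩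
  let B : PowerSeries ℚ := F - G'
  have hB : ∀ i < i₀, coeff i B = 0 := fun i hi => by simp [B, G', hi]
  have hB0 : coeff i₀ B = coeff i₀ F := by simp [B, G']
  -- lowest coefficient of `C`
  have hCex : ∃ a, coeff a C ≠ 0 := by
    by_contra hall
    push Not at hall
    exact hC (PowerSeries.ext fun n => by simpa using hall n)
  let a := Nat.find hCex
  have ha : coeff a C ≠ 0 := Nat.find_spec hCex
  have halt : ∀ i < a, coeff i (C.map (Int.castRingHom ℚ)) = 0 := fun i hi => by
    have := Nat.find_min hCex hi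
    push Not at this
    simp [this]
  -- `C * B ^ n` is integral
  have hCB : ∀ n : ℕ, C.map (Int.castRingHom ℚ) * B ^ n ∈ intSeries := by
    intro n
    have : B ^ n = ∑ k ∈ Finset.range (n + 1), F ^ k * (-G') ^ (n - k) * (n.choose k : PowerSeries ℚ) := by
      simp only [B, sub_eq_add_neg]
      exact add_pow F (-G') n
    rw [this, Finset.mul_sum]
    refine Subring.sum_mem _ fun k _ => ?_
    have e : C.map (Int.castRingHom ℚ) * (F ^ k * (-G') ^ (n - k) * (n.choose k : PowerSeries ℚ)) =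
        (C.map (Int.castRingHom ℚ) * F ^ k) * ((-G') ^ (n - k) * (n.choose k : PowerSeries ℚ)) := by
      ring
    rw [e]
    refine Subring.mul_mem _ (h' k) (Subring.mul_mem _ ?_ ?_)
    · exact Subring.pow_mem _ (Subring.neg_mem _ hG') _
    · exact natCast_mem _ _
  -- extract the lowest coefficient
  have key : ∀ n : ℕ, ∃ m : ℤ, ((coeff a C : ℤ) : ℚ) * (coeff i₀ F) ^ n = m := by
    intro n
    have h1 := (coeff_pow_of_vanish_below hB n)
    have h2 := (coeff_mul_of_vanish_below halt h1.1).2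
    rw [h1.2, hB0] at h2
    obtain ⟨m, hm⟩ := (mem_intSeries_iff _).mp (hCB n) (a + n * i₀)
    refine ⟨m, ?_⟩
    rw [← hm, h2]
    simp
  obtain ⟨m, hm⟩ := rat_isInt_of_mul_pow_isInt _ ha _ key
  exact hi₀ m hm

/-- L2: `ℤ⟦X⟧` is "completely integrally closed" in `ℚ⟦X⟧`. -/
theorem mem_range_map_of_bounded_powers (F : PowerSeries ℚ) (C : PowerSeries ℤ) (hC : C ≠ 0)
    (h : ∀ n : ℕ, C.map (Int.castRingHom ℚ) * F ^ n ∈
      Set.range (PowerSeries.map (Int.castRingHom ℚ))) :
    F ∈ Set.range (PowerSeries.map (Int.castRingHom ℚ)) :=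
  mem_ringHomRange_of_bounded_powers F C hC h

/-! ## L4 -/

section L4

/-- coefficientwise `ℚ`-linear projection `G ↦ (π (lam * Gₙ))ₙ`. -/
noncomputable def projSer (π : ℂ →ₗ[ℚ] ℚ) (lam : ℂ) (G : PowerSeries ℂ) : PowerSeries ℚ :=
  PowerSeries.mk fun n => π (lam * coeff n G)

@[simp] theorem coeff_projSer (π : ℂ →ₗ[ℚ] ℚ) (lam : ℂ) (G : PowerSeries ℂ) (n : ℕ) :
    coeff n (projSer π lam G) = π (lam * coeff n G) := by
  simp [projSer]

theorem projSer_add (π : ℂ →ₗ[ℚ] ℚ) (lam : ℂ) (G H : PowerSeries ℂ) :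
    projSer π lam (G + H) = projSer π lam G + projSer π lam H := by
  ext n; simp [mul_add]

theorem projSer_zero (π : ℂ →ₗ[ℚ] ℚ) (lam : ℂ) : projSer π lam 0 = 0 := by
  ext n; simp

theorem projSer_sum (π : ℂ →ₗ[ℚ] ℚ) (lam : ℂ) {ι : Type*} (s : Finset ι)
    (G : ι → PowerSeries ℂ) :
    projSer π lam (∑ i ∈ s, G i) = ∑ i ∈ s, projSer π lam (G i) := by
  classical
  induction s using Finset.induction_on with
  | empty => simp [projSer_zero]
  | insert a s ha ih => rw [Finset.sum_insert ha, Finset.sum_insert ha, projSer_add, ih]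

theorem projSer_smul (π : ℂ →ₗ[ℚ] ℚ) (lam μ : ℂ) (G : PowerSeries ℂ) :
    projSer π lam (μ • G) = projSer π (lam * μ) G := by
  ext n; simp [mul_assoc]

theorem projSer_map_mul (π : ℂ →ₗ[ℚ] ℚ) (lam : ℂ) (R₀ : PowerSeries ℚ) (G : PowerSeries ℂ) :
    projSer π lam (R₀.map (algebraMap ℚ ℂ) * G) = R₀ * projSer π lam G := by
  ext n
  rw [coeff_projSer, coeff_mul, coeff_mul, Finset.mul_sum, map_sum]
  refine Finset.sum_congr rfl fun x _ => ?_
  rw [coeff_projSer, coeff_map]
  have : lam * ((algebraMap ℚ ℂ) (coeff x.1 R₀) * coeff x.2 G) =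
      (coeff x.1 R₀) • (lam * coeff x.2 G) := by
    rw [Algebra.smul_def]; ring
  rw [this, map_smul, smul_eq_mul]

theorem projSer_one_map (π : ℂ →ₗ[ℚ] ℚ) (hπ : π 1 = 1) (R₀ : PowerSeries ℚ) :
    projSer π 1 (R₀.map (algebraMap ℚ ℂ)) = R₀ := by
  ext n
  rw [coeff_projSer, coeff_map, one_mul]
  have : (algebraMap ℚ ℂ) (coeff n R₀) = (coeff n R₀) • (1 : ℂ) := by
    rw [Algebra.smul_def, mul_one]
  rw [this, map_smul, hπ, smul_eq_mul, mul_one]

/-- rational power series with bounded denominators -/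
noncomputable def bddDen : Submodule ℚ (PowerSeries ℚ) :=
  Submodule.span ℚ (Set.range (PowerSeries.map (Int.castRingHom ℚ)))

theorem exists_nat_smul_mem_of_mem_bddDen {G : PowerSeries ℚ} (hG : G ∈ bddDen) :
    ∃ M : ℕ, 0 < M ∧ (M : ℚ) • G ∈ intSeries := by
  induction hG using Submodule.span_induction with
  | mem x hx =>
    refine ⟨1, one_pos, ?_⟩
    rw [Nat.cast_one, one_smul]
    obtain ⟨y, rfl⟩ := hx
    exact ⟨y, rfl⟩
  | zero => exact ⟨1, one_pos, by simp⟩
  | add x y _ _ hx hy =>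
    obtain ⟨M₁, h1, hx⟩ := hx
    obtain ⟨M₂, h2, hy⟩ := hy
    refine ⟨M₁ * M₂, Nat.mul_pos h1 h2, ?_⟩
    have e : ((M₁ * M₂ : ℕ) : ℚ) • (x + y) =
        (M₂ : PowerSeries ℚ) * ((M₁ : ℚ) • x) + (M₁ : PowerSeries ℚ) * ((M₂ : ℚ) • y) := by
      ext n
      simp only [map_add, coeff_smul, smul_eq_mul, Nat.cast_mul]
      rw [show (M₂ : PowerSeries ℚ) = PowerSeries.C (M₂ : ℚ) by simp,
        show (M₁ : PowerSeries ℚ) = PowerSeries.C (M₁ : ℚ) by simp]
      simp only [coeff_C_mul, coeff_smul, smul_eq_mul]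
      ring
    rw [e]
    exact Subring.add_mem _ (Subring.mul_mem _ (natCast_mem _ _) hx)
      (Subring.mul_mem _ (natCast_mem _ _) hy)
  | smul q x _ hx =>
    obtain ⟨M, hM, hx⟩ := hx
    refine ⟨q.den * M, Nat.mul_pos q.den_pos hM, ?_⟩
    have e : ((q.den * M : ℕ) : ℚ) • (q • x) = (q.num : PowerSeries ℚ) * ((M : ℚ) • x) := by
      ext n
      rw [show (q.num : PowerSeries ℚ) = PowerSeries.C (q.num : ℚ) by simp]
      simp only [coeff_smul, smul_eq_mul, Nat.cast_mul, coeff_C_mul]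
      have hq : (q.den : ℚ) * q = q.num := Rat.den_mul_eq_num q
      calc (q.den : ℚ) * M * (q * coeff n x) = ((q.den : ℚ) * q) * (M * coeff n x) := by ring
        _ = q.num * (M * coeff n x) := by rw [hq]
    rw [e]
    exact Subring.mul_mem _ (intCast_mem _ _) hx

theorem projSer_mem_bddDen (π : ℂ →ₗ[ℚ] ℚ) {D : PowerSeries ℂ}
    (hD : D ∈ Submodule.span ℂ ZSer) : ∀ lam : ℂ, projSer π lam D ∈ bddDen := by
  induction hD using Submodule.span_induction with
  | mem x hx =>
    intro lam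
    obtain ⟨Z, rfl⟩ := hx
    have : projSer π lam (Z.map (Int.castRingHom ℂ)) = (π lam) • Z.map (Int.castRingHom ℚ) := by
      ext n
      simp only [coeff_projSer, coeff_map, coeff_smul, smul_eq_mul, eq_intCast]
      have : lam * ((coeff n Z : ℤ) : ℂ) = ((coeff n Z : ℤ) : ℚ) • lam := by
        rw [Algebra.smul_def]; simp [mul_comm]
      rw [this, map_smul, smul_eq_mul, mul_comm]
    rw [this]
    exact Submodule.smul_mem _ _ (Submodule.subset_span ⟨Z, rfl⟩)
  | zero => intro lam; rw [projSer_zero]; exact Submodule.zero_mem _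
  | add x y _ _ hx hy => intro lam; rw [projSer_add]; exact Submodule.add_mem _ (hx lam) (hy lam)
  | smul μ x _ hx => intro lam; rw [projSer_smul]; exact hx _

end L4

section L4main

/-- `ℚ`-linear retraction `ℂ → ℚ`. -/
theorem exists_retraction : ∃ π : ℂ →ₗ[ℚ] ℚ, π 1 = 1 := by
  have hinj : LinearMap.ker (Algebra.linearMap ℚ ℂ) = ⊥ :=
    LinearMap.ker_eq_bot.mpr (algebraMap ℚ ℂ).injective
  obtain ⟨g, hg⟩ := LinearMap.exists_leftInverse_of_injective (Algebra.linearMap ℚ ℂ) hinj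
  refine ⟨g, ?_⟩
  have := LinearMap.congr_fun hg 1
  simpa using this

/-- integrality step: if `F ^ n + ∑_{j<n} e j * F ^ j = 0` with `e j` integral, and `D * F` and `D`
are integral, then `D ^ (n-1) * F ^ m` is integral for all `m`. -/
theorem pow_mul_pow_mem_intSeries (F D : PowerSeries ℚ) (n : ℕ) (hn : 0 < n)
    (e : ℕ → PowerSeries ℚ) (he : ∀ j < n, e j ∈ intSeries)
    (hmonic : F ^ n + ∑ j ∈ Finset.range n, e j * F ^ j = 0)
    (hD : D ∈ intSeries) (hDF : D * F ∈ intSeries) :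
    ∀ m : ℕ, D ^ (n - 1) * F ^ m ∈ intSeries := by
  intro m
  induction m using Nat.strong_induction_on with
  | _ m ih =>
    by_cases hm : m < n
    · have e1 : D ^ (n - 1) * F ^ m = D ^ (n - 1 - m) * (D * F) ^ m := by
        rw [mul_pow, ← mul_assoc, ← pow_add]
        congr 2
        omega
      rw [e1]
      exact Subring.mul_mem _ (Subring.pow_mem _ hD _) (Subring.pow_mem _ hDF _)
    · have hFn : F ^ n = - ∑ j ∈ Finset.range n, e j * F ^ j := eq_neg_of_add_eq_zero_left hmonic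
      have e1 : F ^ m = F ^ (m - n) * F ^ n := by
        rw [← pow_add]; congr 1; omega
      have e2 : D ^ (n - 1) * F ^ m =
          - ∑ j ∈ Finset.range n, e j * (D ^ (n - 1) * F ^ (m - n + j)) := by
        rw [e1, hFn, mul_neg, mul_neg, Finset.mul_sum, Finset.mul_sum]
        congr 1
        refine Finset.sum_congr rfl fun j _ => ?_
        rw [pow_add]; ring
      rw [e2]
      refine Subring.neg_mem _ (Subring.sum_mem _ fun j hj => ?_)
      have hj' : j < n := Finset.mem_range.mp hj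
      exact Subring.mul_mem _ (he j hj') (ih _ (by omega))

theorem map_rat_mem_ZSer_of_mem_intSeries {G : PowerSeries ℚ} (hG : G ∈ intSeries) :
    G.map (algebraMap ℚ ℂ) ∈ ZSer := by
  obtain ⟨Z, rfl⟩ := hG
  refine ⟨Z, ?_⟩
  ext n
  simp

/-- **L4.** A rational power series `f` which is a quotient `A / D` of two series in the `ℂ`-span
of integral series, and which is a root of a monic polynomial with coefficients in that span, has
bounded denominators. -/
theorem exists_nat_smul_mem_ZSer (f : PowerSeries ℂ) (hf : f ∈ QSer)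
    (D A : PowerSeries ℂ) (hD0 : D ≠ 0) (hD : D ∈ Submodule.span ℂ ZSer)
    (hA : A ∈ Submodule.span ℂ ZSer) (hfD : f * D = A)
    (n : ℕ) (c : ℕ → PowerSeries ℂ) (hc : ∀ j < n, c j ∈ Submodule.span ℂ ZSer)
    (hmonic : f ^ n + ∑ j ∈ Finset.range n, c j * f ^ j = 0) :
    ∃ M : ℕ, 0 < M ∧ (M : ℂ) • f ∈ ZSer := by
  classical
  obtain ⟨f₀, rfl⟩ := hf
  obtain ⟨π, hπ⟩ := exists_retraction
  -- `n > 0`
  have hn : 0 < n := by
    rcases Nat.eq_zero_or_pos n with h0 | h0
    · subst h0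
      simp at hmonic
    · exact h0
  -- the quotient relation over `ℚ`
  obtain ⟨m, hm⟩ : ∃ m, coeff m D ≠ 0 := by
    by_contra hall
    push Not at hall
    exact hD0 (PowerSeries.ext fun k => by simpa using hall k)
  set lam : ℂ := (coeff m D)⁻¹ with hlam
  set D₁ := projSer π lam D with hD₁
  set A₁ := projSer π lam A with hA₁
  have hD₁0 : D₁ ≠ 0 := by
    intro h
    have : coeff m D₁ = 1 := by
      rw [hD₁, coeff_projSer, hlam, inv_mul_cancel₀ hm, hπ]
    rw [h] at this
    simp at this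
  have hfD₁ : f₀ * D₁ = A₁ := by
    rw [hD₁, hA₁, ← projSer_map_mul, hfD]
  obtain ⟨MD, hMD, hMD'⟩ := exists_nat_smul_mem_of_mem_bddDen (projSer_mem_bddDen π hD lam)
  obtain ⟨MA, hMA, hMA'⟩ := exists_nat_smul_mem_of_mem_bddDen (projSer_mem_bddDen π hA lam)
  set D₂ : PowerSeries ℚ := ((MD * MA : ℕ) : ℚ) • D₁ with hD₂
  have smul_eq : ∀ (q : ℚ) (G : PowerSeries ℚ), q • G = PowerSeries.C q * G := by
    intro q G; ext k; simp
  have hD₂mem : D₂ ∈ intSeries := by
    have : D₂ = (MA : PowerSeries ℚ) * ((MD : ℚ) • D₁) := by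
      rw [hD₂, smul_eq, smul_eq, show (MA : PowerSeries ℚ) = PowerSeries.C (MA : ℚ) by simp]
      push_cast
      rw [map_mul]; ring
    rw [this]
    exact Subring.mul_mem _ (natCast_mem _ _) hMD'
  have hD₂0 : D₂ ≠ 0 := by
    rw [hD₂, smul_eq]
    refine mul_ne_zero ?_ hD₁0
    rw [Ne, map_eq_zero_iff _ PowerSeries.C_injective]
    have := Nat.mul_pos hMD hMA
    exact_mod_cast this.ne'
  have hD₂f : D₂ * f₀ ∈ intSeries := by
    have : D₂ * f₀ = (MD : PowerSeries ℚ) * ((MA : ℚ) • A₁) := by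
      rw [hD₂, smul_eq, smul_eq, show (MD : PowerSeries ℚ) = PowerSeries.C (MD : ℚ) by simp,
        ← hfD₁]
      push_cast
      rw [map_mul]; ring
    rw [this]
    exact Subring.mul_mem _ (natCast_mem _ _) hMA'
  -- the monic equation over `ℚ`
  set c' : ℕ → PowerSeries ℚ := fun j => projSer π 1 (c j) with hc'
  have hmonic' : f₀ ^ n + ∑ j ∈ Finset.range n, c' j * f₀ ^ j = 0 := by
    have h1 := congrArg (projSer π 1) hmonic
    rw [projSer_zero, projSer_add, projSer_sum, ← map_pow, projSer_one_map π hπ] at h1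
    rw [← h1]
    congr 1
    refine Finset.sum_congr rfl fun j _ => ?_
    rw [← map_pow, mul_comm (c j), projSer_map_mul, mul_comm]
  have hc'mem : ∀ j, ∃ M : ℕ, 0 < M ∧ (j < n → (M : ℚ) • c' j ∈ intSeries) := by
    intro j
    by_cases hj : j < n
    · obtain ⟨M, hM, hM'⟩ := exists_nat_smul_mem_of_mem_bddDen (projSer_mem_bddDen π (hc j hj) 1)
      exact ⟨M, hM, fun _ => hM'⟩
    · exact ⟨1, one_pos, fun h => absurd h hj⟩
  choose Mj hMjpos hMj using hc'mem
  set M₂ : ℕ := ∏ j ∈ Finset.range n, Mj j with hM₂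
  have hM₂pos : 0 < M₂ := Finset.prod_pos fun j _ => hMjpos j
  have hM₂c : ∀ j < n, (M₂ : ℚ) • c' j ∈ intSeries := by
    intro j hj
    obtain ⟨k, hk⟩ : Mj j ∣ M₂ := Finset.dvd_prod_of_mem _ (Finset.mem_range.mpr hj)
    have : (M₂ : ℚ) • c' j = (k : PowerSeries ℚ) * ((Mj j : ℚ) • c' j) := by
      rw [smul_eq, smul_eq, show (k : PowerSeries ℚ) = PowerSeries.C (k : ℚ) by simp, hk]
      push_cast
      rw [map_mul]; ring
    rw [this]
    exact Subring.mul_mem _ (natCast_mem _ _) (hMj j hj)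
  set F : PowerSeries ℚ := (M₂ : ℚ) • f₀ with hF
  set e : ℕ → PowerSeries ℚ := fun j => ((M₂ : ℚ) ^ (n - j)) • c' j with he
  have hemem : ∀ j < n, e j ∈ intSeries := by
    intro j hj
    have : e j = ((M₂ ^ (n - j - 1) : ℕ) : PowerSeries ℚ) * ((M₂ : ℚ) • c' j) := by
      rw [he]
      simp only
      rw [smul_eq, smul_eq,
        show ((M₂ ^ (n - j - 1) : ℕ) : PowerSeries ℚ) = PowerSeries.C ((M₂ : ℚ) ^ (n - j - 1)) by
          simp,
        ← mul_assoc, ← map_mul, ← pow_succ]
      congr 3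
      omega
    rw [this]
    exact Subring.mul_mem _ (natCast_mem _ _) (hM₂c j hj)
  have hmonicF : F ^ n + ∑ j ∈ Finset.range n, e j * F ^ j = 0 := by
    have : F ^ n + ∑ j ∈ Finset.range n, e j * F ^ j =
        PowerSeries.C ((M₂ : ℚ) ^ n) * (f₀ ^ n + ∑ j ∈ Finset.range n, c' j * f₀ ^ j) := by
      rw [mul_add, Finset.mul_sum, hF, smul_eq, mul_pow, ← map_pow]
      congr 1
      refine Finset.sum_congr rfl fun j hj => ?_
      have hj' : j < n := Finset.mem_range.mp hj
      rw [he]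
      simp only
      rw [smul_eq, mul_pow, ← map_pow]
      have : (M₂ : ℚ) ^ n = (M₂ : ℚ) ^ (n - j) * (M₂ : ℚ) ^ j := by
        rw [← pow_add]; congr 1; omega
      rw [this, map_mul]
      ring
    rw [this, hmonic', mul_zero]
  have hD₂F : D₂ * F ∈ intSeries := by
    have : D₂ * F = (M₂ : PowerSeries ℚ) * (D₂ * f₀) := by
      rw [hF, smul_eq, show (M₂ : PowerSeries ℚ) = PowerSeries.C (M₂ : ℚ) by simp]
      ring
    rw [this]
    exact Subring.mul_mem _ (natCast_mem _ _) hD₂f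
  have hpow := pow_mul_pow_mem_intSeries F D₂ n hn e hemem hmonicF hD₂mem hD₂F
  -- apply L2
  obtain ⟨Z₂, hZ₂⟩ := hD₂mem
  have hZ₂0 : Z₂ ≠ 0 := by
    rintro rfl
    apply hD₂0
    rw [← hZ₂, map_zero]
  have hFmem : F ∈ (PowerSeries.map (Int.castRingHom ℚ)).range := by
    refine mem_ringHomRange_of_bounded_powers F (Z₂ ^ (n - 1)) (pow_ne_zero _ hZ₂0) fun k => ?_
    rw [map_pow, hZ₂]
    exact hpow k
  refine ⟨M₂, hM₂pos, ?_⟩
  have := map_rat_mem_ZSer_of_mem_intSeries hFmem
  convert this using 1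
  ext k
  simp [hF]

end L4main

end Fermat.Agent.S23
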