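import Mathlib

/-!
# S23, step D (converse), part 1: elementary root bounds for monic polynomial relations
-/

namespace Fermat.Agent.S23Converse

open Finset

/-- If `u ^ n + ∑ a i * u ^ i = 0` then `‖u‖ ≤ max 1 (∑ ‖a i‖)`. -/
lemma norm_le_of_monic_root {n : ℕ} (u : ℂ) (a : Fin n → ℂ)
    (h : u ^ n + ∑ i : Fin n, a i * u ^ (i : ℕ) = 0) :
    ‖u‖ ≤ max 1 (∑ i : Fin n, ‖a i‖) := by
  by_cases hu : ‖u‖ ≤ 1
  · exact le_max_of_le_left hu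
  rw [not_le] at hu
  refine le_max_of_le_right ?_
  have hpos : 0 < ‖u‖ := lt_trans one_pos hu
  rcases Nat.eq_zero_or_pos n with rfl | hn
  · simp at h
  have h1 : ‖u‖ ^ n = ‖∑ i : Fin n, a i * u ^ (i : ℕ)‖ := by
    rw [← norm_pow, eq_neg_of_add_eq_zero_left h, norm_neg]
  have h2 : ‖∑ i : Fin n, a i * u ^ (i : ℕ)‖ ≤ ∑ i : Fin n, ‖a i‖ * ‖u‖ ^ (n - 1) := by
    refine (norm_sum_le _ _).trans (Finset.sum_le_sum fun i _ => ?_)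
    rw [norm_mul, norm_pow]
    refine mul_le_mul_of_nonneg_left ?_ (norm_nonneg _)
    exact pow_le_pow_right₀ hu.le (by omega)
  rw [← Finset.sum_mul] at h2
  have h3 : ‖u‖ ^ n = ‖u‖ * ‖u‖ ^ (n - 1) := by
    rw [← pow_succ']; congr 1; omega
  have h4 : ‖u‖ * ‖u‖ ^ (n - 1) ≤ (∑ i : Fin n, ‖a i‖) * ‖u‖ ^ (n - 1) := by
    rw [← h3, h1]; exact h2
  exact le_of_mul_le_mul_right h4 (pow_pos hpos _)

/-- If `u ^ n + ∑ a i * u ^ i = 0`, `0 < ε ≤ 1` and `∑ ‖a i‖ < ε ^ n` then `‖u‖ < ε`. -/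
lemma norm_lt_of_monic_root_of_small {n : ℕ} (u : ℂ) (a : Fin n → ℂ)
    (h : u ^ n + ∑ i : Fin n, a i * u ^ (i : ℕ) = 0) {ε : ℝ} (hε : 0 < ε) (hε1 : ε ≤ 1)
    (hS : ∑ i : Fin n, ‖a i‖ < ε ^ n) : ‖u‖ < ε := by
  rcases Nat.eq_zero_or_pos n with rfl | hn
  · simp at h
  have hεn : ε ^ n ≤ 1 := pow_le_one₀ hε.le hε1
  have hle := norm_le_of_monic_root u a h
  have hu1 : ‖u‖ ≤ 1 := by
    refine hle.trans (max_le le_rfl ?_)
    exact (hS.trans_le hεn).le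
  have h1 : ‖u‖ ^ n = ‖∑ i : Fin n, a i * u ^ (i : ℕ)‖ := by
    rw [← norm_pow, eq_neg_of_add_eq_zero_left h, norm_neg]
  have h2 : ‖∑ i : Fin n, a i * u ^ (i : ℕ)‖ ≤ ∑ i : Fin n, ‖a i‖ := by
    refine (norm_sum_le _ _).trans (Finset.sum_le_sum fun i _ => ?_)
    rw [norm_mul, norm_pow]
    exact mul_le_of_le_one_right (norm_nonneg _) (pow_le_one₀ (norm_nonneg _) hu1)
  have h3 : ‖u‖ ^ n < ε ^ n := by rw [h1]; exact h2.trans_lt hS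
  exact lt_of_pow_lt_pow_left₀ n hε.le h3

end Fermat.Agent.S23Converse
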