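import Mathlib

/-!
# S23, step D (converse), part 2: division of holomorphic functions under a local bound

If `a`, `d` are holomorphic on a connected open set `U ⊆ ℂ`, `d ≢ 0` and `a / d` is locally bounded
where defined, then there is a holomorphic `F` on `U` with `F * d = a`.
-/

namespace Fermat.Agent.S23Converse

open Filter Topology Set Metric Function

/-- Zeros of a not identically vanishing holomorphic function on a connected open set are
isolated. -/
lemma eventually_ne_zero_of_differentiableOn {U : Set ℂ} (hU : IsOpen U) (hUc : IsPreconnected U)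
    {d : ℂ → ℂ} (hd : DifferentiableOn ℂ d U) (hne : ∃ w ∈ U, d w ≠ 0)
    {z₀ : ℂ} (hz₀ : z₀ ∈ U) : ∀ᶠ z in 𝓝[≠] z₀, d z ≠ 0 := by
  have hana : AnalyticOnNhd ℂ d U := hd.analyticOnNhd hU
  rcases (hana z₀ hz₀).eventually_eq_zero_or_eventually_ne_zero with h | h
  · exfalso
    obtain ⟨w, hw, hdw⟩ := hne
    exact hdw (hana.eqOn_zero_of_preconnected_of_eventuallyEq_zero hUc hz₀ h hw)
  · exact h

/-- A continuous function killed by a nonzero holomorphic function vanishes. -/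
lemma eq_zero_of_mul_eq_zero_of_differentiableOn {U : Set ℂ} (hU : IsOpen U)
    (hUc : IsPreconnected U) {u d : ℂ → ℂ} (hu : ContinuousOn u U)
    (hd : DifferentiableOn ℂ d U) (hne : ∃ w ∈ U, d w ≠ 0)
    (h : ∀ z ∈ U, u z * d z = 0) {z₀ : ℂ} (hz₀ : z₀ ∈ U) : u z₀ = 0 := by
  have h1 : ∀ᶠ z in 𝓝[≠] z₀, d z ≠ 0 := eventually_ne_zero_of_differentiableOn hU hUc hd hne hz₀
  have h2 : ∀ᶠ z in 𝓝[≠] z₀, z ∈ U := nhdsWithin_le_nhds (hU.mem_nhds hz₀)
  have h3 : ∀ᶠ z in 𝓝[≠] z₀, u z = 0 := by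
    filter_upwards [h1, h2] with z hz hzU
    exact (mul_eq_zero.mp (h z hzU)).resolve_right hz
  have hcont : Tendsto u (𝓝[≠] z₀) (𝓝 (u z₀)) :=
    ((hu.continuousAt (hU.mem_nhds hz₀)).tendsto).mono_left nhdsWithin_le_nhds
  have hzero : Tendsto u (𝓝[≠] z₀) (𝓝 0) := by
    refine (tendsto_congr' ?_).mpr tendsto_const_nhds
    exact h3
  exact tendsto_nhds_unique hcont hzero

/-- **Division lemma.** If `a`, `d` are holomorphic on a connected open `U`, `d ≢ 0` on `U`, and
`‖a / d‖ ≤ B` on `{d ≠ 0}` for some function `B` continuous on `U`, then `a = F * d` for a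
holomorphic `F` on `U`. -/
theorem exists_differentiableOn_mul_eq {U : Set ℂ} (hU : IsOpen U) (hUc : IsPreconnected U)
    {a d : ℂ → ℂ} (ha : DifferentiableOn ℂ a U) (hd : DifferentiableOn ℂ d U)
    (hne : ∃ w ∈ U, d w ≠ 0) {B : ℂ → ℝ} (hB : ContinuousOn B U)
    (hbound : ∀ z ∈ U, d z ≠ 0 → ‖a z / d z‖ ≤ B z) :
    ∃ F : ℂ → ℂ, DifferentiableOn ℂ F U ∧ ∀ z ∈ U, F z * d z = a z := by
  set q : ℂ → ℂ := fun z => a z / d z with hq
  set F : ℂ → ℂ := fun z => limUnder (𝓝[≠] z) q with hF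
  -- `F = q` where `d ≠ 0`
  have hFq : ∀ z ∈ U, d z ≠ 0 → F z = q z := by
    intro z hz hdz
    have hcont : ContinuousAt q z :=
      ((ha.differentiableAt (hU.mem_nhds hz)).continuousAt).div
        ((hd.differentiableAt (hU.mem_nhds hz)).continuousAt) hdz
    exact (hcont.tendsto.mono_left nhdsWithin_le_nhds).limUnder_eq
  -- local structure
  have hloc : ∀ z₀ ∈ U, ∃ r > 0, ball z₀ r ⊆ U ∧
      DifferentiableOn ℂ (update q z₀ (limUnder (𝓝[≠] z₀) q)) (ball z₀ r) ∧
      ∀ z ∈ ball z₀ r, F z = update q z₀ (limUnder (𝓝[≠] z₀) q) z := by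
    intro z₀ hz₀
    have h1 : ∀ᶠ z in 𝓝 z₀, z ≠ z₀ → d z ≠ 0 :=
      eventually_nhdsWithin_iff.mp (eventually_ne_zero_of_differentiableOn hU hUc hd hne hz₀)
    have h2 : ∀ᶠ z in 𝓝 z₀, z ∈ U := hU.mem_nhds hz₀
    obtain ⟨ε, hε, hball⟩ := Metric.eventually_nhds_iff_ball.mp (h1.and h2)
    have hr : 0 < ε / 2 := half_pos hε
    have hcb : closedBall z₀ (ε / 2) ⊆ ball z₀ ε := closedBall_subset_ball (half_lt_self hε)
    have hcbU : closedBall z₀ (ε / 2) ⊆ U := fun z hz => (hball z (hcb hz)).2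
    have hbU : ball z₀ (ε / 2) ⊆ U := ball_subset_closedBall.trans hcbU
    have hdne : ∀ z ∈ ball z₀ (ε / 2), z ≠ z₀ → d z ≠ 0 := fun z hz hzz =>
      (hball z (hcb (ball_subset_closedBall hz))).1 hzz
    obtain ⟨M, hM⟩ : ∃ M, ∀ z ∈ closedBall z₀ (ε / 2), B z ≤ M := by
      obtain ⟨M, hM⟩ := (isCompact_closedBall z₀ (ε / 2)).bddAbove_image (hB.mono hcbU)
      exact ⟨M, fun z hz => hM (mem_image_of_mem _ hz)⟩
    have hqd : DifferentiableOn ℂ q (ball z₀ (ε / 2) \ {z₀}) := by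
      intro z hz
      have hzU : z ∈ U := hbU hz.1
      have hdz : d z ≠ 0 := hdne z hz.1 (by simpa using hz.2)
      exact ((ha.differentiableAt (hU.mem_nhds hzU)).div
        (hd.differentiableAt (hU.mem_nhds hzU)) hdz).differentiableWithinAt
    have hqb : BddAbove (norm ∘ q '' (ball z₀ (ε / 2) \ {z₀})) := by
      refine ⟨M, ?_⟩
      rintro _ ⟨z, hz, rfl⟩
      have hzU : z ∈ U := hbU hz.1
      have hdz : d z ≠ 0 := hdne z hz.1 (by simpa using hz.2)
      exact (hbound z hzU hdz).trans (hM z (ball_subset_closedBall hz.1))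
    refine ⟨ε / 2, hr, hbU, ?_, ?_⟩
    · exact Complex.differentiableOn_update_limUnder_of_bddAbove (ball_mem_nhds z₀ hr) hqd hqb
    · intro z hz
      rcases eq_or_ne z z₀ with rfl | hzz
      · simp [hF]
      · rw [update_of_ne hzz]
        exact hFq z (hbU hz) (hdne z hz hzz)
  have hFdiff : DifferentiableOn ℂ F U := by
    intro z₀ hz₀
    obtain ⟨r, hr, -, hdiff, heq⟩ := hloc z₀ hz₀
    have hat : DifferentiableAt ℂ (update q z₀ (limUnder (𝓝[≠] z₀) q)) z₀ :=
      hdiff.differentiableAt (ball_mem_nhds z₀ hr)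
    have hev : F =ᶠ[𝓝 z₀] update q z₀ (limUnder (𝓝[≠] z₀) q) := by
      filter_upwards [ball_mem_nhds z₀ hr] with z hz using heq z hz
    exact (hat.congr_of_eventuallyEq hev).differentiableWithinAt
  refine ⟨F, hFdiff, ?_⟩
  intro z hz
  by_cases hdz : d z = 0
  · -- `F * d - a` is continuous, and `(F * d - a) * d = 0` off the zeros of `d`
    have hu : ContinuousOn (fun z => F z * d z - a z) U :=
      (hFdiff.continuousOn.mul hd.continuousOn).sub ha.continuousOn
    have hzero : ∀ w ∈ U, (F w * d w - a w) * d w = 0 := by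
      intro w hw
      by_cases hdw : d w = 0
      · rw [hdw, mul_zero]
      · rw [hFq w hw hdw, hq]
        simp only
        rw [div_mul_cancel₀ _ hdw, sub_self, zero_mul]
    have := eq_zero_of_mul_eq_zero_of_differentiableOn hU hUc hu hd hne hzero hz
    exact sub_eq_zero.mp this
  · rw [hFq z hz hdz, hq]
    simp only
    exact div_mul_cancel₀ _ hdz

end Fermat.Agent.S23Converse
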