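import Mathlib
import Fermat.Agent.S23.ConverseExtend

/-!
# S23, step D (converse), part 3: the division lemma on the upper half plane
-/

namespace Fermat.Agent.S23Converse

open Filter Topology Set Metric Function UpperHalfPlane
open scoped Manifold

lemma isPreconnected_upperHalfPlaneSet : IsPreconnected {z : ℂ | 0 < z.im} :=
  (convex_halfSpace_im_gt 0).isPreconnected

lemma continuousOn_comp_ofComplex {X : Type*} [TopologicalSpace X] {u : ℍ → X}
    (hu : Continuous u) : ContinuousOn (u ∘ ofComplex) {z : ℂ | 0 < z.im} := by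
  intro z hz
  have h1 : ContinuousAt ofComplex z :=
    ofComplex.continuousAt (by
      rw [show ofComplex.source = {z : ℂ | 0 < z.im} from ?_]
      · exact hz
      · ext w
        simp [ofComplex, IsOpenEmbedding.toOpenPartialHomeomorph])
  exact (hu.continuousAt.comp h1).continuousWithinAt

/-- A continuous function on `ℍ` killed by a nonzero holomorphic function vanishes. -/
theorem eq_zero_of_mul_eq_zero {u d : ℍ → ℂ} (hu : Continuous u) (hd : MDiff d)
    (hne : ∃ τ, d τ ≠ 0) (h : ∀ τ, u τ * d τ = 0) (τ : ℍ) : u τ = 0 := by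
  have hd' : DifferentiableOn ℂ (d ∘ ofComplex) {z : ℂ | 0 < z.im} :=
    mdifferentiable_iff.mp hd
  have hne' : ∃ w ∈ {z : ℂ | 0 < z.im}, (d ∘ ofComplex) w ≠ 0 := by
    obtain ⟨σ, hσ⟩ := hne
    exact ⟨σ, σ.im_pos, by simpa using hσ⟩
  have h' : ∀ z ∈ {z : ℂ | 0 < z.im}, (u ∘ ofComplex) z * (d ∘ ofComplex) z = 0 :=
    fun z _ => h (ofComplex z)
  have := eq_zero_of_mul_eq_zero_of_differentiableOn isOpen_upperHalfPlaneSet
    isPreconnected_upperHalfPlaneSet (continuousOn_comp_ofComplex hu) hd' hne' h'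
    (z₀ := (τ : ℂ)) τ.im_pos
  simpa using this

/-- **Division lemma on `ℍ`.** -/
theorem exists_mdifferentiable_mul_eq {a d : ℍ → ℂ} (ha : MDiff a) (hd : MDiff d)
    (hne : ∃ τ, d τ ≠ 0) {B : ℍ → ℝ} (hB : Continuous B)
    (hbound : ∀ τ, d τ ≠ 0 → ‖a τ / d τ‖ ≤ B τ) :
    ∃ f : ℍ → ℂ, MDiff f ∧ ∀ τ, f τ * d τ = a τ := by
  have ha' : DifferentiableOn ℂ (a ∘ ofComplex) {z : ℂ | 0 < z.im} :=
    mdifferentiable_iff.mp ha
  have hd' : DifferentiableOn ℂ (d ∘ ofComplex) {z : ℂ | 0 < z.im} :=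
    mdifferentiable_iff.mp hd
  have hne' : ∃ w ∈ {z : ℂ | 0 < z.im}, (d ∘ ofComplex) w ≠ 0 := by
    obtain ⟨σ, hσ⟩ := hne
    exact ⟨σ, σ.im_pos, by simpa using hσ⟩
  obtain ⟨F, hF, hFeq⟩ := exists_differentiableOn_mul_eq isOpen_upperHalfPlaneSet
    isPreconnected_upperHalfPlaneSet ha' hd' hne' (continuousOn_comp_ofComplex hB)
    (fun z _ hz => hbound (ofComplex z) hz)
  refine ⟨fun τ => F τ, ?_, ?_⟩
  · rw [mdifferentiable_iff]
    refine hF.congr ?_
    intro z hz
    simp only [comp_apply]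
    rw [ofComplex_apply_of_im_pos hz]
  · intro τ
    have := hFeq τ τ.im_pos
    simpa using this

end Fermat.Agent.S23Converse
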