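import Mathlib
import Fermat.Agent.S23.ConverseRootBound
import Fermat.Agent.S23.ConverseUHP

/-!
# S23, step D (converse), part 4: from certificates to a cusp form (function level)

Let `Γ` be an arithmetic subgroup, `D ≠ 0` a modular form of weight `w` and `A` a modular form of
weight `w + k` on `Γ`.  Assume the monic relation
`A ^ n + ∑ i < n, c i * A ^ i * D ^ (n - i) = 0` where the `c i` are continuous functions on `ℍ`,
invariant of weight `k * (n - i)` under `SL(2, ℤ)` and tending to `0` at `i∞`.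
Then `A = f * D` for a cusp form `f` of weight `k` on `Γ`.
-/

namespace Fermat.Agent.S23Converse

open Filter Topology Set Function UpperHalfPlane ModularForm Matrix.SpecialLinearGroup
open scoped Manifold MatrixGroups

section relation

variable {n : ℕ} (c : Fin n → ℍ → ℂ)

/-- The monic relation for the quotient, off the zeros of `D`. -/
lemma quot_relation {a d : ℂ} (cτ : Fin n → ℂ) (hd : d ≠ 0)
    (hrel : a ^ n + ∑ i : Fin n, cτ i * a ^ (i : ℕ) * d ^ (n - (i : ℕ)) = 0) :
    (a / d) ^ n + ∑ i : Fin n, cτ i * (a / d) ^ (i : ℕ) = 0 := by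
  have hdn : d ^ n ≠ 0 := pow_ne_zero _ hd
  have h1 : ((a / d) ^ n + ∑ i : Fin n, cτ i * (a / d) ^ (i : ℕ)) * d ^ n = 0 := by
    rw [add_mul, Finset.sum_mul, div_pow, div_mul_cancel₀ _ hdn, ← hrel]
    congr 1
    refine Finset.sum_congr rfl fun i _ => ?_
    have hi : (i : ℕ) ≤ n := i.2.le
    have : d ^ n = d ^ (i : ℕ) * d ^ (n - (i : ℕ)) := by
      rw [← pow_add]; congr 1; omega
    rw [this, div_pow]
    field_simp
  exact (mul_eq_zero.mp h1).resolve_right hdn

end relation

/-- **Step D, function level.** -/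
theorem exists_cuspForm_of_mul_eq
    {Γ : Subgroup (GL (Fin 2) ℝ)} [Γ.IsArithmetic] {k w : ℤ}
    (D : ModularForm Γ w) (hD : ∃ τ, D τ ≠ 0) (A : ModularForm Γ (w + k))
    {n : ℕ} (c : Fin n → ℍ → ℂ)
    (hc_cont : ∀ i, Continuous (c i))
    (hc_slash : ∀ (i : Fin n) (γ : SL(2, ℤ)), c i ∣[k * ((n : ℤ) - (i : ℕ))] γ = c i)
    (hc_zero : ∀ i, IsZeroAtImInfty (c i))
    (hrel : ∀ τ : ℍ, A τ ^ n + ∑ i : Fin n, c i τ * A τ ^ (i : ℕ) * D τ ^ (n - (i : ℕ)) = 0) :
    ∃ f : CuspForm Γ k, ∀ τ, f τ * D τ = A τ := by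
  -- the bound
  set B : ℍ → ℝ := fun τ => max 1 (∑ i : Fin n, ‖c i τ‖) with hB
  have hBcont : Continuous B :=
    continuous_const.max (continuous_finsetSum _ fun i _ => (hc_cont i).norm)
  have hbound : ∀ τ, D τ ≠ 0 → ‖A τ / D τ‖ ≤ B τ := fun τ hτ =>
    norm_le_of_monic_root _ _ (quot_relation (fun i => c i τ) hτ (hrel τ))
  obtain ⟨f, hf, hfeq⟩ := exists_mdifferentiable_mul_eq (a := ⇑A) (d := ⇑D)
    (ModularFormClass.holo A) (ModularFormClass.holo D) hD hBcont hbound
  -- the monic relation for `f`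
  have hfrel : ∀ τ, f τ ^ n + ∑ i : Fin n, c i τ * f τ ^ (i : ℕ) = 0 := by
    have hcont : Continuous fun τ => f τ ^ n + ∑ i : Fin n, c i τ * f τ ^ (i : ℕ) :=
      (hf.continuous.pow n).add
        (continuous_finsetSum _ fun i _ => (hc_cont i).mul (hf.continuous.pow _))
    have hDn : MDiff fun τ => D τ ^ n := (ModularFormClass.holo D).pow n
    refine eq_zero_of_mul_eq_zero hcont hDn ?_ ?_
    · obtain ⟨τ, hτ⟩ := hD
      exact ⟨τ, pow_ne_zero _ hτ⟩
    · intro τ
      rw [add_mul, Finset.sum_mul, ← mul_pow, hfeq, ← hrel τ]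
      congr 1
      refine Finset.sum_congr rfl fun i _ => ?_
      have hi : (i : ℕ) ≤ n := i.2.le
      have : D τ ^ n = D τ ^ (i : ℕ) * D τ ^ (n - (i : ℕ)) := by
        rw [← pow_add]; congr 1; omega
      rw [this, ← hfeq τ]
      ring
  -- slash invariance
  have hslash : ∀ g ∈ Γ, f ∣[k] g = f := by
    intro g hg
    have hdet : |(g.det : ℝ)| = 1 := Subgroup.HasDetPlusMinusOne.abs_det hg
    have hfD : (f * ⇑D) = ⇑A := funext hfeq
    have h1 : (f * ⇑D) ∣[k + w] g = (f ∣[k] g) * ⇑D := by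
      rw [ModularForm.mul_slash, hdet, one_smul, SlashInvariantFormClass.slash_action_eq D g hg]
    have h2 : (⇑A : ℍ → ℂ) ∣[k + w] g = ⇑A := by
      have := SlashInvariantFormClass.slash_action_eq A g hg
      rw [add_comm]
      exact this
    have h3 : ∀ τ, ((f ∣[k] g) τ - f τ) * D τ = 0 := by
      intro τ
      have := congrFun (h1.symm.trans ((congrArg (· ∣[k + w] g) hfD).trans h2)) τ
      simp only [Pi.mul_apply] at this
      rw [sub_mul, this, hfeq, sub_self]
    have hcont : Continuous fun τ => (f ∣[k] g) τ - f τ :=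
      ((hf.slash k g).continuous).sub hf.continuous
    funext τ
    exact sub_eq_zero.mp (eq_zero_of_mul_eq_zero hcont (ModularFormClass.holo D) hD h3 τ)
  -- vanishing at cusps
  have hzero : ∀ γ : SL(2, ℤ), IsZeroAtImInfty (f ∣[k] γ) := by
    intro γ
    -- relation for `f ∣[k] γ`
    have hγrel : ∀ τ, (f ∣[k] γ) τ ^ n + ∑ i : Fin n, c i τ * (f ∣[k] γ) τ ^ (i : ℕ) = 0 := by
      intro τ
      have hden : denom γ τ ≠ 0 := denom_ne_zero γ τ
      have h0 := hfrel (γ • τ)
      have hci : ∀ i : Fin n, c i (γ • τ) = c i τ * denom γ τ ^ (k * ((n : ℤ) - (i : ℕ))) := by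
        intro i
        have := congrFun (hc_slash i γ) τ
        rw [SL_slash_apply] at this
        rw [← this, mul_assoc, ← zpow_add₀ hden]
        simp
      rw [SL_slash_apply]
      have key : (f (γ • τ) * denom γ τ ^ (-k)) ^ n +
          ∑ i : Fin n, c i τ * (f (γ • τ) * denom γ τ ^ (-k)) ^ (i : ℕ) =
          (f (γ • τ) ^ n + ∑ i : Fin n, c i (γ • τ) * f (γ • τ) ^ (i : ℕ)) *
            (denom γ τ ^ (-k)) ^ n := by
        rw [add_mul, Finset.sum_mul, mul_pow]
        congr 1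
        refine Finset.sum_congr rfl fun i _ => ?_
        rw [hci i, mul_pow]
        have hi : (i : ℕ) ≤ n := i.2.le
        have hz : denom γ τ ^ (k * ((n : ℤ) - (i : ℕ))) * (denom γ τ ^ (-k)) ^ n =
            (denom γ τ ^ (-k)) ^ (i : ℕ) := by
          rw [← zpow_natCast (denom γ τ ^ (-k)) n, ← zpow_natCast (denom γ τ ^ (-k)) (i : ℕ),
            ← zpow_mul, ← zpow_mul, ← zpow_add₀ hden]
          congr 1
          ring
        calc c i τ * (f (γ • τ) ^ (i : ℕ) * (denom γ τ ^ (-k)) ^ (i : ℕ))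
            = c i τ * f (γ • τ) ^ (i : ℕ) * (denom γ τ ^ (-k)) ^ (i : ℕ) := by ring
          _ = c i τ * f (γ • τ) ^ (i : ℕ) *
              (denom γ τ ^ (k * ((n : ℤ) - (i : ℕ))) * (denom γ τ ^ (-k)) ^ n) := by rw [hz]
          _ = _ := by ring
      rw [key, h0, zero_mul]
    -- the limit
    rw [IsZeroAtImInfty, ZeroAtFilter, Metric.tendsto_nhds]
    intro ε hε
    set ε' : ℝ := min ε 1 with hε'
    have hε'pos : 0 < ε' := lt_min hε one_pos
    have hsum : Tendsto (fun τ => ∑ i : Fin n, ‖c i τ‖) atImInfty (𝓝 0) := by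
      have : Tendsto (fun τ => ∑ i : Fin n, ‖c i τ‖) atImInfty (𝓝 (∑ _i : Fin n, (0 : ℝ))) :=
        tendsto_finsetSum _ fun i _ => by
          have := (hc_zero i)
          rw [IsZeroAtImInfty, ZeroAtFilter] at this
          simpa using this.norm
      simpa using this
    have hev : ∀ᶠ τ in atImInfty, ∑ i : Fin n, ‖c i τ‖ < ε' ^ n :=
      hsum.eventually (gt_mem_nhds (pow_pos hε'pos n))
    filter_upwards [hev] with τ hτ
    rw [dist_zero_right]
    exact (norm_lt_of_monic_root_of_small _ _ (hγrel τ) hε'pos (min_le_right _ _) hτ).trans_le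
      (min_le_left _ _)
  refine ⟨{ toFun := f
            slash_action_eq' := hslash
            holo' := hf
            zero_at_cusps' := ?_ }, hfeq⟩
  intro c hc
  rw [Subgroup.IsArithmetic.isCusp_iff_isCusp_SL2Z] at hc
  rw [OnePoint.isZeroAt_iff_forall_SL2Z hc]
  intro γ _
  exact hzero γ

end Fermat.Agent.S23Converse
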