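import Fermat.Agent.S23.Defs
import Fermat.Agent.S23.ConverseMain
import Fermat.Agent.S23.ConverseQExp
import Fermat.Prelude.Thm_CongruenceSubgroup_one_mem_strictPeriods_Gamma0

/-!
# S23, step D (analysis): from certificates to a cusp form
Owner: helper54.

Proof sketch.  `Φ := A^n + Σ_j c_j A^j D^(n-j)` is a modular form for `Γ₀(N)` with zero q-expansion,
so `Φ = 0`.  Hence on `{D ≠ 0}` the function `g = A / D` satisfies `g^n + Σ c_j g^j = 0`, so
`‖g‖ ≤ max 1 (Σ ‖c_j‖)` is locally bounded: removable singularities at the (isolated) zeros of `D`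
give a holomorphic `f` on `ℍ` with `f * D = A`.  Slash-invariance of `f` follows from that of `A`,
`D`; for `γ ∈ SL(2,ℤ)`, `f ∣[k] γ` satisfies the same monic equation (the `c_j` are level one), so
`‖f ∣[k] γ‖ ^ n ≤ Σ ‖c_j‖ → 0` at `i∞` (when the sum is `≤ 1`): `f` is a cusp form.  Finally
`qExp f * qExp D = qExp A = f₀ * qExp D` and `qExp D ≠ 0`.
-/

set_option autoImplicit false

namespace Fermat.Agent.S23

open UpperHalfPlane ModularForm MatrixGroups Fermat.Agent.S23Converse

set_option linter.unusedVariables false in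
/-- Step D.  `c j` is the coefficient of `X^j` in the monic polynomial (weight `k * (n - j)`). -/
theorem exists_cuspForm_of_certificates (N : ℕ) [NeZero N] (k w : ℤ)
    (D : ModularForm (G0 N) w) (hD : D ≠ 0) (A : ModularForm (G0 N) (w + k))
    (f₀ : PowerSeries ℂ) (hfD : f₀ * qExpansion 1 D = qExpansion 1 A)
    (n : ℕ) (hn : 0 < n) (c : ℕ → ℍ → ℂ)
    (hc : ∀ j < n, IsCF 𝒮ℒ (k * ((n : ℤ) - j)) (c j))
    (hmonic : f₀ ^ n + ∑ j ∈ Finset.range n, qExpansion 1 (c j) * f₀ ^ j = 0) :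
    ∃ f : CuspForm (G0 N) k, qExpansion 1 f = f₀ := by
  have hG0 : (1 : ℝ) ∈ (G0 N).strictPeriods := CongruenceSubgroup.one_mem_strictPeriods_Gamma0 N
  have gA : IsGood (⇑A) := isGood_of_modularFormClass hG0 A
  have gD : IsGood (⇑D) := isGood_of_modularFormClass hG0 D
  have gc : ∀ j < n, IsGood (c j) := by
    intro j hj
    obtain ⟨G, hG⟩ := hc j hj
    rw [← hG]
    exact isGood_of_modularFormClass one_mem_strictPeriods_SL G
  -- `D` does not vanish identically
  have hDne : ∃ τ, D τ ≠ 0 := by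
    by_contra hcon
    push Not at hcon
    exact hD (ModularForm.ext hcon)
  have hDq : qExpansion 1 (⇑D) ≠ 0 := by
    intro h0
    have := gD.eq_zero_of_qExpansion_eq_zero h0
    exact hD (ModularForm.ext fun τ => congrFun this τ)
  -- the relation `Φ = 0`
  set Φ : ℍ → ℂ := (⇑A) ^ n + ∑ j ∈ Finset.range n, c j * (⇑A) ^ j * (⇑D) ^ (n - j) with hΦ
  have gterm : ∀ j ∈ Finset.range n, IsGood (c j * (⇑A) ^ j * (⇑D) ^ (n - j)) := fun j hj =>
    ((gc j (Finset.mem_range.mp hj)).mul (gA.pow j)).mul (gD.pow (n - j))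
  have gΦ : IsGood Φ := (gA.pow n).add (IsGood.sum _ gterm)
  have hΦq : qExpansion 1 Φ = 0 := by
    rw [hΦ, (gA.pow n).qExpansion_add (IsGood.sum _ gterm), gA.qExpansion_pow,
      IsGood.qExpansion_sum _ gterm]
    have hsum : ∑ j ∈ Finset.range n, qExpansion 1 (c j * (⇑A) ^ j * (⇑D) ^ (n - j)) =
        ∑ j ∈ Finset.range n, (qExpansion 1 (c j) * f₀ ^ j) * qExpansion 1 (⇑D) ^ n := by
      refine Finset.sum_congr rfl fun j hj => ?_
      have hjn : j ≤ n := (Finset.mem_range.mp hj).le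
      rw [((gc j (Finset.mem_range.mp hj)).mul (gA.pow j)).qExpansion_mul (gD.pow (n - j)),
        (gc j (Finset.mem_range.mp hj)).qExpansion_mul (gA.pow j), gA.qExpansion_pow,
        gD.qExpansion_pow, ← hfD, mul_pow]
      have : qExpansion 1 (⇑D) ^ n = qExpansion 1 (⇑D) ^ j * qExpansion 1 (⇑D) ^ (n - j) := by
        rw [← pow_add]; congr 1; omega
      rw [this]
      ring
    rw [hsum, ← Finset.sum_mul, ← hfD, mul_pow, ← add_mul, hmonic, zero_mul]
  have hΦ0 : Φ = 0 := gΦ.eq_zero_of_qExpansion_eq_zero hΦq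
  have hrel : ∀ τ : ℍ, A τ ^ n +
      ∑ i : Fin n, c (i : ℕ) τ * A τ ^ (i : ℕ) * D τ ^ (n - (i : ℕ)) = 0 := by
    intro τ
    have := congrFun hΦ0 τ
    rw [hΦ] at this
    simp only [Pi.add_apply, Pi.pow_apply, Finset.sum_apply, Pi.mul_apply, Pi.zero_apply] at this
    rw [Fin.sum_univ_eq_sum_range (fun j => c j τ * A τ ^ j * D τ ^ (n - j)) n]
    exact this
  -- apply the function-level theorem
  obtain ⟨f, hf⟩ := exists_cuspForm_of_mul_eq (Γ := G0 N) D hDne A (fun i : Fin n => c (i : ℕ))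
    (fun i => by
      obtain ⟨G, hG⟩ := hc i i.2
      rw [← hG]
      exact (ModularFormClass.holo G).continuous)
    (fun i γ => by
      obtain ⟨G, hG⟩ := hc i i.2
      rw [← hG]
      exact SlashInvariantFormClass.slash_action_eq G _ ⟨γ, rfl⟩)
    (fun i => by
      obtain ⟨G, hG⟩ := hc i i.2
      rw [← hG]
      have : Fact (IsCusp OnePoint.infty 𝒮ℒ) :=
        ⟨Subgroup.isCusp_of_mem_strictPeriods one_pos one_mem_strictPeriods_SL⟩
      exact CuspFormClass.zero_at_infty G)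
    hrel
  refine ⟨f, ?_⟩
  have gf : IsGood (⇑f) := isGood_of_modularFormClass hG0 f
  have hmul : qExpansion 1 (⇑f) * qExpansion 1 (⇑D) = f₀ * qExpansion 1 (⇑D) := by
    rw [← gf.qExpansion_mul gD, hfD]
    congr 1
    funext τ
    exact hf τ
  exact mul_right_cancel₀ hDq hmul

end Fermat.Agent.S23
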