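import Fermat.Agent.S23.ThetaDef

/-!
# S23, step C1: limits at `i∞` of the `SL(2,ℤ)`-translates of `θ(τ) = E₄(N τ)`
-/

set_option autoImplicit false

namespace Fermat.Agent.S23.Theta

open UpperHalfPlane ModularForm MatrixGroups Filter Topology Matrix.SpecialLinearGroup

theorem det_upperTriangularGL (a b d : ℝ) (had : a * d ≠ 0) :
    ((upperTriangularGL a b d had).det : ℝ) = a * d := by
  rw [Matrix.GeneralLinearGroup.val_det_apply, val_upperTriangularGL, Matrix.det_fin_two_of]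
  ring

theorem slash_upperTriangularGL_apply (f : ℍ → ℂ) (e d : ℕ) (b : ℤ)
    (hed : (e : ℝ) * (d : ℝ) ≠ 0) (τ : ℍ) :
    (f ∣[(4 : ℤ)] upperTriangularGL (e : ℝ) (b : ℝ) (d : ℝ) hed) τ =
      f (upperTriangularGL (e : ℝ) (b : ℝ) (d : ℝ) hed • τ) * ((e : ℂ) * (d : ℂ)) ^ 3 *
        ((d : ℂ) ^ 4)⁻¹ := by
  have hpos : 0 < ((upperTriangularGL (e : ℝ) (b : ℝ) (d : ℝ) hed).det : ℝ) := by
    rw [det_upperTriangularGL]
    have h1 : (0 : ℝ) ≤ (e : ℝ) * (d : ℝ) := by positivity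
    exact lt_of_le_of_ne h1 (Ne.symm hed)
  have hσ : UpperHalfPlane.σ (upperTriangularGL (e : ℝ) (b : ℝ) (d : ℝ) hed) = .refl ℝ ℂ := by
    rw [UpperHalfPlane.σ, if_pos hpos]
  have hden : UpperHalfPlane.denom (upperTriangularGL (e : ℝ) (b : ℝ) (d : ℝ) hed) τ = (d : ℂ) := by
    simp [UpperHalfPlane.denom, val_upperTriangularGL]
  rw [ModularForm.slash_apply, hσ, hden, det_upperTriangularGL]
  have habs : |(e : ℝ) * (d : ℝ)| = (e : ℝ) * (d : ℝ) := abs_of_nonneg (by positivity)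
  rw [habs]
  simp only [ContinuousAlgEquiv.refl_apply]
  rw [show ((4 : ℤ) - 1) = ((3 : ℕ) : ℤ) by norm_num, zpow_natCast,
    show (-(4 : ℤ)) = -((4 : ℕ) : ℤ) by norm_num, zpow_neg, zpow_natCast]
  push_cast
  ring

theorem tendsto_E4_comp_upperTriangularGL (e d : ℕ) (b : ℤ) (hed : (e : ℝ) * (d : ℝ) ≠ 0) :
    Tendsto (fun τ : ℍ => E₄ (upperTriangularGL (e : ℝ) (b : ℝ) (d : ℝ) hed • τ))
      atImInfty (𝓝 1) := by
  have h0 : (upperTriangularGL (e : ℝ) (b : ℝ) (d : ℝ) hed) 1 0 = 0 := by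
    simp [val_upperTriangularGL]
  exact tendsto_E4.comp (UpperHalfPlane.tendsto_smul_atImInfty h0)

/-- The translate of `θ` by `g ∈ SL(2,ℤ)` tends to `d⁻⁴` at `i∞`, where `d = N / gcd(N, g 1 0)`. -/
theorem exists_tendsto_theta_slash (N : ℕ) [NeZero N] (g : SL(2, ℤ)) :
    ∃ d : ℕ, 0 < d ∧ (d = 1 ↔ (N : ℤ) ∣ g 1 0) ∧
      Tendsto (⇑(theta N) ∣[(4 : ℤ)] (mapGL ℝ g : GL (Fin 2) ℝ)) atImInfty
        (𝓝 (((d : ℂ) ^ 4)⁻¹)) := by
  obtain ⟨γ', e, d, b, hed, hedN, hd1, hmat⟩ := exists_decomp (NeZero.ne N) g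
  have hNC : (N : ℂ) ≠ 0 := by exact_mod_cast NeZero.ne N
  have hd0 : d ≠ 0 := by
    rintro rfl
    simp at hed
  refine ⟨d, Nat.pos_of_ne_zero hd0, hd1, ?_⟩
  have hslash : (⇑(theta N) ∣[(4 : ℤ)] (mapGL ℝ g : GL (Fin 2) ℝ)) =
      (((N : ℂ) ^ 3)⁻¹ : ℂ) • (⇑E₄ ∣[(4 : ℤ)] upperTriangularGL (e : ℝ) (b : ℝ) (d : ℝ) hed) := by
    rw [theta_coe, ModularForm.smul_slash]
    have hσ : UpperHalfPlane.σ (mapGL ℝ g : GL (Fin 2) ℝ) = .refl ℝ ℂ := by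
      rw [UpperHalfPlane.σ, if_pos]
      simp
    rw [hσ]
    simp only [ContinuousAlgEquiv.refl_apply]
    congr 1
    rw [← SlashAction.slash_mul, hmat, SlashAction.slash_mul]
    congr 1
    exact SlashInvariantFormClass.slash_action_eq E₄ _ ⟨γ', rfl⟩
  rw [hslash]
  have hfun : ((((N : ℂ) ^ 3)⁻¹ : ℂ) •
      (⇑E₄ ∣[(4 : ℤ)] upperTriangularGL (e : ℝ) (b : ℝ) (d : ℝ) hed)) =
      fun τ : ℍ => E₄ (upperTriangularGL (e : ℝ) (b : ℝ) (d : ℝ) hed • τ) * ((d : ℂ) ^ 4)⁻¹ := by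
    funext τ
    rw [Pi.smul_apply, slash_upperTriangularGL_apply, smul_eq_mul]
    have : ((e : ℂ) * (d : ℂ)) = (N : ℂ) := by exact_mod_cast congrArg (Nat.cast : ℕ → ℂ) hedN
    rw [this]
    field_simp
  rw [hfun]
  have := (tendsto_E4_comp_upperTriangularGL e d b hed).mul_const (((d : ℂ) ^ 4)⁻¹)
  simpa using this

end Fermat.Agent.S23.Theta
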