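import Fermat.Agent.S23.Defs
import Fermat.Agent.S23.ThetaLim

/-!
# S23, step C1: the primitive element `θ(τ) = E₄(N τ)`
Owner: helper80.

`α = diag(N, 1) ∈ GL(2, ℝ)`; `(E₄ ∣[4] α) τ = N³ E₄(N τ)`; `θ = N⁻³ • (E₄ ∣[4] α)` restricted to
`Γ₀(N)` (`Theta.theta`, file `ThetaDef.lean`).
* q-expansion: `E₄(Nτ) = Σ aₙ q^(N n)`, `aₙ ∈ ℤ` (`Theta.qExpansion_theta_mem_ZSer`).
* translates: for `g ∈ SL(2,ℤ)`, `α g = γ' β` with `γ' ∈ SL(2,ℤ)`, `β = [[e, b],[0, d]]`, `e d = N`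
  (`Theta.exists_decomp`, file `ThetaAux.lean`), so `θ ∣[4] g → d⁻⁴` at `i∞`
  (`Theta.exists_tendsto_theta_slash`, file `ThetaLim.lean`), and `d = 1 ↔ g ∈ Γ₀(N)`.
-/

set_option autoImplicit false

namespace Fermat.Agent.S23

open UpperHalfPlane ModularForm MatrixGroups Filter Topology

/-- Step C1: a weight 4 form on `Γ₀(N)` with integral q-expansion whose non-trivial
`SL(2,ℤ)`-translates have a value at `i∞` different from its own. -/
theorem exists_theta (N : ℕ) [NeZero N] :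
    ∃ θ : ModularForm (G0 N) 4,
      qExpansion 1 θ ∈ ZSer ∧
      Tendsto θ atImInfty (𝓝 1) ∧
      ∀ q : 𝒮ℒ ⧸ (G0 N).subgroupOf 𝒮ℒ, q ≠ QuotientGroup.mk 1 →
        ∃ ℓ : ℂ, ℓ ≠ 1 ∧ Tendsto (SlashInvariantForm.quotientFunc θ q) atImInfty (𝓝 ℓ) := by
  refine ⟨Theta.theta N, Theta.qExpansion_theta_mem_ZSer N, Theta.tendsto_theta N, ?_⟩
  intro q hq
  induction q using QuotientGroup.induction_on with
  | H h =>
    obtain ⟨g, hg⟩ : ∃ g : SL(2, ℤ),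
        (Matrix.SpecialLinearGroup.mapGL ℝ g : GL (Fin 2) ℝ) = (h : GL (Fin 2) ℝ)⁻¹ := by
      obtain ⟨g0, hg0⟩ := h.2
      exact ⟨g0⁻¹, by rw [map_inv, hg0]⟩
    obtain ⟨d, hdpos, hd1, hlim⟩ := Theta.exists_tendsto_theta_slash N g
    refine ⟨((d : ℂ) ^ 4)⁻¹, ?_, ?_⟩
    · have hd : d ≠ 1 := by
        intro h1
        have hdvd := hd1.mp h1
        apply hq
        rw [QuotientGroup.eq, mul_one, Subgroup.mem_subgroupOf]
        refine ⟨g, ?_, ?_⟩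
        · rw [SetLike.mem_coe, CongruenceSubgroup.Gamma0_mem]
          exact (ZMod.intCast_zmod_eq_zero_iff_dvd _ N).mpr hdvd
        · rw [hg]; rfl
      have hd2 : 2 ≤ d := by omega
      intro hone
      rw [inv_eq_one] at hone
      have h16 : (16 : ℕ) ≤ d ^ 4 := by
        calc (16 : ℕ) = 2 ^ 4 := by norm_num
          _ ≤ d ^ 4 := Nat.pow_le_pow_left hd2 4
      have hcast : ((d ^ 4 : ℕ) : ℂ) = ((1 : ℕ) : ℂ) := by
        push_cast
        exact hone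
      have := Nat.cast_injective hcast
      omega
    · have hq' : SlashInvariantForm.quotientFunc (Theta.theta N)
          (QuotientGroup.mk h : 𝒮ℒ ⧸ (G0 N).subgroupOf 𝒮ℒ) =
          ⇑(Theta.theta N) ∣[(4 : ℤ)] (h : GL (Fin 2) ℝ)⁻¹ := rfl
      rw [hq', ← hg]
      exact hlim

end Fermat.Agent.S23
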