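import Fermat.Agent.S23.LevelOne

/-!
# S23, step A (extras): consequences of `levelOne_span_ZSer`
Owner: helper40.

* `qExpansion_modularForm_mem_span_ZSer`: the q-expansion of a level one form lies in `span ℂ ZSer`.
* `span_ZSer_mul`, `span_ZSer_pow`: `span ℂ ZSer` is closed under products.
* `exists_modularForm_map`, `exists_cuspForm_map`, `isCF_map`: for a ring endomorphism `τ` of `ℂ`,
  the coefficientwise `τ`-conjugate of the q-expansion of a level one (cusp) form is again the
  q-expansion of a level one (cusp) form of the same weight.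
-/

set_option autoImplicit false

namespace Fermat.Agent.S23

open UpperHalfPlane ModularForm ModularFormClass MatrixGroups

lemma map_eq_self_of_mem_ZSer (τ : ℂ →+* ℂ) {p : PowerSeries ℂ} (hp : p ∈ ZSer) :
    PowerSeries.map τ p = p := by
  obtain ⟨P, rfl⟩ := hp
  ext n
  simp

lemma one_mem_ZSer : (1 : PowerSeries ℂ) ∈ ZSer := ⟨1, by simp⟩

lemma mul_mem_ZSer {p q : PowerSeries ℂ} (hp : p ∈ ZSer) (hq : q ∈ ZSer) : p * q ∈ ZSer := by
  obtain ⟨P, rfl⟩ := hp
  obtain ⟨Q, rfl⟩ := hq
  exact ⟨P * Q, by simp⟩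

/-- `span ℂ ZSer` is closed under multiplication. -/
lemma span_ZSer_mul {a b : PowerSeries ℂ} (ha : a ∈ Submodule.span ℂ ZSer)
    (hb : b ∈ Submodule.span ℂ ZSer) : a * b ∈ Submodule.span ℂ ZSer := by
  induction ha using Submodule.span_induction with
  | mem x hx =>
    induction hb using Submodule.span_induction with
    | mem y hy => exact Submodule.subset_span (mul_mem_ZSer hx hy)
    | zero => simp
    | add y z _ _ hy hz => rw [mul_add]; exact Submodule.add_mem _ hy hz
    | smul c y _ hy => rw [mul_smul_comm]; exact Submodule.smul_mem _ _ hy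
  | zero => simp
  | add x y _ _ hx hy => rw [add_mul]; exact Submodule.add_mem _ hx hy
  | smul c x _ hx => rw [smul_mul_assoc]; exact Submodule.smul_mem _ _ hx

lemma span_ZSer_pow {a : PowerSeries ℂ} (ha : a ∈ Submodule.span ℂ ZSer) (n : ℕ) :
    a ^ n ∈ Submodule.span ℂ ZSer := by
  induction n with
  | zero => rw [pow_zero]; exact Submodule.subset_span one_mem_ZSer
  | succ n ih => rw [pow_succ]; exact span_ZSer_mul ih ha

/-- The q-expansion of a level one modular form lies in the `ℂ`-span of the integral series. -/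
theorem qExpansion_modularForm_mem_span_ZSer {k : ℤ} (G : ModularForm 𝒮ℒ k) :
    qExpansion 1 G ∈ Submodule.span ℂ ZSer := by
  have hG : G ∈ Submodule.span ℂ {G : ModularForm 𝒮ℒ k | qExpansion 1 G ∈ ZSer} := by
    rw [levelOne_span_ZSer]; trivial
  induction hG using Submodule.span_induction with
  | mem x hx => exact Submodule.subset_span hx
  | zero =>
    rw [FunLike.coe_zero, qExpansion_zero]; exact Submodule.zero_mem _
  | add x y _ _ hx hy =>
    rw [FunLike.coe_add, ModularForm.qExpansion_add one_pos one_mem_strictPeriods_SL]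
    exact Submodule.add_mem _ hx hy
  | smul c x _ hx =>
    rw [FunLike.coe_smul, ModularForm.qExpansion_smul one_pos one_mem_strictPeriods_SL]
    exact Submodule.smul_mem _ _ hx

/-- Conjugating the q-expansion of a level one modular form by a ring endomorphism of `ℂ` gives
the q-expansion of a level one modular form of the same weight. -/
theorem exists_modularForm_map (τ : ℂ →+* ℂ) {k : ℤ} (G : ModularForm 𝒮ℒ k) :
    ∃ G' : ModularForm 𝒮ℒ k, qExpansion 1 G' = PowerSeries.map τ (qExpansion 1 G) := by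
  have hG : G ∈ Submodule.span ℂ {G : ModularForm 𝒮ℒ k | qExpansion 1 G ∈ ZSer} := by
    rw [levelOne_span_ZSer]; trivial
  induction hG using Submodule.span_induction with
  | mem x hx => exact ⟨x, (map_eq_self_of_mem_ZSer τ hx).symm⟩
  | zero => exact ⟨0, by rw [FunLike.coe_zero, qExpansion_zero, map_zero]⟩
  | add x y _ _ hx hy =>
    obtain ⟨x', hx'⟩ := hx
    obtain ⟨y', hy'⟩ := hy
    refine ⟨x' + y', ?_⟩
    rw [FunLike.coe_add, ModularForm.qExpansion_add one_pos one_mem_strictPeriods_SL,
      FunLike.coe_add, ModularForm.qExpansion_add one_pos one_mem_strictPeriods_SL, map_add,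
      hx', hy']
  | smul c x _ hx =>
    obtain ⟨x', hx'⟩ := hx
    refine ⟨τ c • x', ?_⟩
    rw [FunLike.coe_smul, ModularForm.qExpansion_smul one_pos one_mem_strictPeriods_SL,
      FunLike.coe_smul, ModularForm.qExpansion_smul one_pos one_mem_strictPeriods_SL, hx']
    ext n
    simp

/-- Conjugating the q-expansion of a level one cusp form by a ring endomorphism of `ℂ` gives
the q-expansion of a level one cusp form of the same weight. -/
theorem exists_cuspForm_map (τ : ℂ →+* ℂ) {k : ℤ} (G : CuspForm 𝒮ℒ k) :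
    ∃ G' : CuspForm 𝒮ℒ k, qExpansion 1 G' = PowerSeries.map τ (qExpansion 1 G) := by
  obtain ⟨G', hG'⟩ := exists_modularForm_map τ (CuspForm.toModularFormₗ G)
  have h0 : (qExpansion 1 G').coeff 0 = 0 := by
    rw [hG', PowerSeries.coeff_map]
    have : (qExpansion 1 (CuspForm.toModularFormₗ G)).coeff 0 = 0 :=
      CuspFormClass.qExpansion_coeff_zero G one_pos one_mem_strictPeriods_SL
    rw [this, map_zero]
  exact ⟨toCuspForm G' h0, hG'⟩

/-- Function-level version of `exists_cuspForm_map`. -/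
theorem isCF_map (τ : ℂ →+* ℂ) {k : ℤ} {c : ℍ → ℂ} (hc : IsCF 𝒮ℒ k c) :
    ∃ c' : ℍ → ℂ, IsCF 𝒮ℒ k c' ∧ qExpansion 1 c' = PowerSeries.map τ (qExpansion 1 c) := by
  obtain ⟨G, rfl⟩ := hc
  obtain ⟨G', hG'⟩ := exists_cuspForm_map τ G
  exact ⟨G', ⟨G', rfl⟩, hG'⟩

/-- Function-level version of `exists_modularForm_map`. -/
theorem isMF_map (τ : ℂ →+* ℂ) {k : ℤ} {c : ℍ → ℂ} (hc : IsMF 𝒮ℒ k c) :
    ∃ c' : ℍ → ℂ, IsMF 𝒮ℒ k c' ∧ qExpansion 1 c' = PowerSeries.map τ (qExpansion 1 c) := by
  obtain ⟨G, rfl⟩ := hc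
  obtain ⟨G', hG'⟩ := exists_modularForm_map τ G
  exact ⟨G', ⟨G', rfl⟩, hG'⟩

end Fermat.Agent.S23
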