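import Fermat.Agent.S23.MF
import Fermat.Agent.S23.LevelOneAux

/-!
# S23: consequences of step A (level one forms and ring endomorphisms of `ℂ`)
Owner: helper40.

All three follow from `levelOne_span_ZSer` by `Submodule.span_induction`
(for the cusp version: `toCuspForm` / `isCuspForm_iff_coeffZero_eq_zero`, a level one modular form
is a cusp form iff its constant coefficient vanishes, and `τ 0 = 0`).
-/

set_option autoImplicit false

namespace Fermat.Agent.S23

open UpperHalfPlane ModularForm MatrixGroups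

/-- `span ℂ ZSer` is closed under multiplication. -/
theorem mul_mem_span_ZSer {a b : PowerSeries ℂ} (ha : a ∈ Submodule.span ℂ ZSer)
    (hb : b ∈ Submodule.span ℂ ZSer) : a * b ∈ Submodule.span ℂ ZSer := by
  exact span_ZSer_mul ha hb

theorem one_mem_span_ZSer : (1 : PowerSeries ℂ) ∈ Submodule.span ℂ ZSer := by
  exact Submodule.subset_span one_mem_ZSer

/-- A ring endomorphism of `ℂ` fixes integral power series. -/
theorem map_eq_of_mem_ZSer (τ : ℂ →+* ℂ) {a : PowerSeries ℂ} (ha : a ∈ ZSer) :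
    PowerSeries.map τ a = a := by
  exact map_eq_self_of_mem_ZSer τ ha

theorem qExpansion_mem_span_ZSer {k : ℤ} {g : ℍ → ℂ} (hg : IsMF 𝒮ℒ k g) :
    qExpansion 1 g ∈ Submodule.span ℂ ZSer := by
  obtain ⟨G, rfl⟩ := hg
  exact qExpansion_modularForm_mem_span_ZSer G

theorem exists_isMF_qExpansion_map (τ : ℂ →+* ℂ) {k : ℤ} {g : ℍ → ℂ} (hg : IsMF 𝒮ℒ k g) :
    ∃ g' : ℍ → ℂ, IsMF 𝒮ℒ k g' ∧ qExpansion 1 g' = PowerSeries.map τ (qExpansion 1 g) := by
  exact isMF_map τ hg

theorem exists_isCF_qExpansion_map (τ : ℂ →+* ℂ) {k : ℤ} {g : ℍ → ℂ} (hg : IsCF 𝒮ℒ k g) :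
    ∃ g' : ℍ → ℂ, IsCF 𝒮ℒ k g' ∧ qExpansion 1 g' = PowerSeries.map τ (qExpansion 1 g) := by
  exact isCF_map τ hg

end Fermat.Agent.S23
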