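import Fermat.Agent.S23.StabilityMap
import Fermat.Agent.S23.BoundedDenomMF

/-!
# S23: the two key properties of the space of q-expansions of cusp forms on `Γ₀(N)`

* `Fermat.Agent.S23.exists_cuspForm_qExpansion_map` (file `StabilityMap.lean`)
* `Fermat.Agent.S23.exists_nat_smul_qExpansion_mem_ZSer` (file `BoundedDenomMF.lean`)
-/
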