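import Fermat.Agent.S23.Defs
import Fermat.Prelude.Def_ModularForm_HeckeOperator

/-!
# S23, step C1 (auxiliary): matrices

Decomposition `diag(N,1) * g = γ' * [[e, b], [0, d]]` for `g ∈ SL(2,ℤ)`.
-/

set_option autoImplicit false

namespace Fermat.Agent.S23.Theta

open UpperHalfPlane ModularForm MatrixGroups Filter Topology Matrix.SpecialLinearGroup

theorem mapGL_apply' (g : SL(2, ℤ)) (i j : Fin 2) :
    (mapGL ℝ g : GL (Fin 2) ℝ) i j = ((g i j : ℤ) : ℝ) := by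
  simp

theorem sl2_det_eq (g : SL(2, ℤ)) : g 0 0 * g 1 1 - g 0 1 * g 1 0 = 1 := by
  have h := g.det_coe
  rwa [Matrix.det_fin_two] at h

/-- `diag(N, 1) * g = g' * diag(N, 1)` for `g ∈ Γ₀(N)`. -/
theorem heckeDiagMatrix_mul_comm {N : ℕ} (hN : N ≠ 0) (g : SL(2, ℤ)) (e : ℤ)
    (he : g 1 0 = N * e) :
    ∃ g' : SL(2, ℤ), heckeDiagMatrix N * mapGL ℝ g = mapGL ℝ g' * heckeDiagMatrix N := by
  have hdet := sl2_det_eq g
  refine ⟨⟨!![g 0 0, N * g 0 1; e, g 1 1], ?_⟩, ?_⟩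
  · rw [Matrix.det_fin_two_of]
    linear_combination hdet + (g 0 1) * he
  · ext i j
    fin_cases i <;> fin_cases j <;>
      simp [hN, Matrix.mul_apply, Fin.sum_univ_two]
    all_goals first
      | (have := congrArg (Int.cast : ℤ → ℝ) he; push_cast at this ⊢; linear_combination this)
      | (have := congrArg (Int.cast : ℤ → ℝ) he; push_cast at this ⊢; linear_combination -this)
      | ring1

/-- The key decomposition: for `g ∈ SL(2,ℤ)` and `N ≠ 0`, we can write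
`diag(N,1) * g = γ' * [[e, b], [0, d]]` with `γ' ∈ SL(2,ℤ)`, `e * d = N`, and `d = 1` iff
`N ∣ g 1 0`. -/
theorem exists_decomp {N : ℕ} (hN : N ≠ 0) (g : SL(2, ℤ)) :
    ∃ (γ' : SL(2, ℤ)) (e d : ℕ) (b : ℤ) (hed : (e : ℝ) * (d : ℝ) ≠ 0), e * d = N ∧
      (d = 1 ↔ (N : ℤ) ∣ g 1 0) ∧
      heckeDiagMatrix N * mapGL ℝ g = mapGL ℝ γ' * upperTriangularGL (e : ℝ) (b : ℝ) (d : ℝ) hed := by
  have hdet := sl2_det_eq g
  set a₀ := g 0 0 with ha₀
  set b₀ := g 0 1 with hb₀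
  set c₀ := g 1 0 with hc₀
  set d₀ := g 1 1 with hd₀
  -- e = gcd(N, c₀)
  set e : ℕ := Int.gcd (N : ℤ) c₀ with he
  have he_pos : 0 < e := Int.gcd_pos_of_ne_zero_left _ (by exact_mod_cast hN)
  have heN : (e : ℤ) ∣ (N : ℤ) := Int.gcd_dvd_left _ _
  have hec : (e : ℤ) ∣ c₀ := Int.gcd_dvd_right _ _
  obtain ⟨dz, hdz⟩ := heN
  obtain ⟨z, hz⟩ := hec
  have hdz_pos : 0 < dz := by
    have hNpos : (0 : ℤ) < N := by exact_mod_cast Nat.pos_of_ne_zero hN
    have hepos : (0 : ℤ) < e := by exact_mod_cast he_pos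
    rw [hdz] at hNpos
    exact (mul_pos_iff_of_pos_left hepos).mp hNpos
  obtain ⟨d, hd⟩ : ∃ d : ℕ, (d : ℤ) = dz := ⟨dz.toNat, Int.toNat_of_nonneg hdz_pos.le⟩
  have hd_pos : 0 < d := by
    have : (0 : ℤ) < d := by rw [hd]; exact hdz_pos
    exact_mod_cast this
  have hedN : e * d = N := by
    have : ((e * d : ℕ) : ℤ) = N := by push_cast; rw [hd, ← hdz]
    exact_mod_cast this
  -- gcd(d, z) = 1
  have hcop_dz : IsCoprime (d : ℤ) z := by
    rw [Int.isCoprime_iff_gcd_eq_one]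
    have h1 : Int.gcd ((e : ℤ) * d) ((e : ℤ) * z) = e := by
      rw [hd, ← hdz, ← hz]
    rw [Int.gcd_mul_left] at h1
    have h2 : (e : ℤ).natAbs = e := Int.natAbs_natCast e
    rw [h2] at h1
    have : e * Int.gcd (d : ℤ) z = e * 1 := by rw [h1, mul_one]
    exact Nat.eq_of_mul_eq_mul_left he_pos this
  have hcop_az : IsCoprime a₀ z := by
    have h1 : IsCoprime a₀ c₀ := ⟨d₀, -b₀, by linear_combination hdet⟩
    rw [hz] at h1
    exact h1.of_mul_right_right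
  have hcop : IsCoprime ((d : ℤ) * a₀) z := hcop_dz.mul_left hcop_az
  obtain ⟨u, v, huv⟩ := hcop
  -- huv : u * (d * a₀) + v * z = 1
  have hed : (e : ℝ) * (d : ℝ) ≠ 0 := by
    have : (0 : ℝ) < (e : ℝ) * (d : ℝ) := by positivity
    exact this.ne'
  refine ⟨⟨!![(d : ℤ) * a₀, -v; z, u], ?_⟩, e, d, u * N * b₀ + v * d₀, hed, hedN, ?_, ?_⟩
  · rw [Matrix.det_fin_two_of]
    linear_combination huv
  · constructor
    · intro h1
      subst h1
      have : (e : ℤ) = N := by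
        have := hedN
        simp at this
        exact_mod_cast this
      rw [← this]
      exact ⟨z, hz⟩
    · intro hNc
      have : (N : ℤ) ∣ Int.gcd (N : ℤ) c₀ := Int.dvd_coe_gcd (dvd_refl _) hNc
      have h2 : (N : ℤ) ∣ (e : ℤ) := this
      have h3 : N ∣ e := by exact_mod_cast h2
      have h4 : e ∣ N := ⟨d, hedN.symm⟩
      have h5 : e = N := Nat.dvd_antisymm h4 h3
      rw [h5] at hedN
      have : N * d = N * 1 := by rw [hedN, mul_one]
      exact Nat.eq_of_mul_eq_mul_left (Nat.pos_of_ne_zero hN) this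
  · have hNR : (N : ℝ) = (e : ℝ) * (d : ℝ) := by exact_mod_cast hedN.symm
    have hzR : (c₀ : ℝ) = (e : ℝ) * (z : ℝ) := by exact_mod_cast hz
    have huvR : (u : ℝ) * ((d : ℝ) * (a₀ : ℝ)) + (v : ℝ) * (z : ℝ) = 1 := by exact_mod_cast huv
    have hdetR : (a₀ : ℝ) * (d₀ : ℝ) - (b₀ : ℝ) * (c₀ : ℝ) = 1 := by exact_mod_cast hdet
    ext i j
    fin_cases i <;> fin_cases j <;>
      simp [hN, Matrix.mul_apply, Fin.sum_univ_two, ← ha₀, ← hb₀, ← hc₀, ← hd₀]
    · rw [hNR]; ring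
    · linear_combination (-(N : ℝ) * b₀) * huvR - ((d : ℝ) * v) * hdetR
        + ((b₀ : ℝ) * v * z) * hNR - ((d : ℝ) * v * b₀) * hzR
    · rw [hzR]; ring
    · linear_combination (-(d₀ : ℝ)) * huvR + ((u : ℝ) * d) * hdetR
        + ((u : ℝ) * b₀ * d) * hzR - ((u : ℝ) * b₀ * z) * hNR

end Fermat.Agent.S23.Theta
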